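import Fermat.Agent.S56.TW.Bridge
import Fermat.Agent.S56.TW.CaseB.Top

/-!
# S56 / TW : Step C — a cocycle vanishing on the scalar part of `Gn` is a coboundary

Case A (some scalar element has `det ≠ 1`): Sah's lemma.
Case B (all scalar elements have `det = 1`): descent to `Γ = ρ(G) ≤ GL₂(k)` and `twg_caseB`.
-/

set_option autoImplicit false
set_option linter.unusedSectionVars false

namespace Fermat.Agent.S56

open Matrix OnePoint

variable {k : Type*} [Field k] {G : Type*} [Group G] {ρ : G →* GL (Fin 2) k}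

theorem twg_coc_one (ψ : G → Matrix (Fin 2) (Fin 2) k)
    (hcoc : ∀ g h, ψ (g * h) = ψ g + twgMAct (ρ g) (ψ h)) : ψ 1 = 0 := by
  have := hcoc 1 1
  rw [mul_one, map_one, twgx_mact_one] at this
  exact left_eq_add.1 this

/-- the basic commutation identity: for `z` with `ρ(z)` the scalar `c`,
`ψ z + c² ψ g = ψ g + g • ψ z` -/
theorem twg_coc_swap (Gn : Subgroup G) (hab : ∀ g h : G, g * h * g⁻¹ * h⁻¹ ∈ Gn)
    (ψ : G → Matrix (Fin 2) (Fin 2) k)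
    (hcoc : ∀ g h, ψ (g * h) = ψ g + twgMAct (ρ g) (ψ h))
    (hvan : ∀ n ∈ Gn, (∃ a : k, (ρ n).1 = a • (1 : Matrix (Fin 2) (Fin 2) k)) → ψ n = 0)
    (z : G) (c : k) (hz : (ρ z).1 = c • (1 : Matrix (Fin 2) (Fin 2) k)) (g : G) :
    ψ z + (c * c) • ψ g = ψ g + twgMAct (ρ g) (ψ z) := by
  set n := z⁻¹ * g⁻¹ * z * g with hn
  have hnG : n ∈ Gn := by
    have := hab z⁻¹ g⁻¹
    simpa using this
  have hcen : ∀ x : GL (Fin 2) k, ρ z * x = x * ρ z := by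
    intro x
    apply Units.ext
    rw [Units.val_mul, Units.val_mul, hz, Matrix.smul_mul, Matrix.mul_smul, Matrix.one_mul,
      Matrix.mul_one]
  have hρn : ρ n = 1 := by
    rw [hn, map_mul, map_mul, map_mul, map_inv, map_inv, mul_assoc (ρ z)⁻¹, ← hcen,
      inv_mul_cancel_left, inv_mul_cancel]
  have hψn : ψ n = 0 := by
    refine hvan n hnG ⟨1, ?_⟩
    rw [hρn, one_smul]; rfl
  have e : z * g = g * z * n := by
    rw [hn]; group
  have h1 : ψ (z * g) = ψ z + (c * c) • ψ g := by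
    rw [hcoc, twgx_mact_scalar _ _ hz]
  have h2 : ψ (g * z * n) = ψ g + twgMAct (ρ g) (ψ z) := by
    rw [hcoc (g * z) n, hψn, twgx_mact_zero, add_zero, hcoc]
  rw [← h1, e, h2]

/-- **Case A (Sah).** -/
theorem twg_cob_sah (Gn : Subgroup G) (hab : ∀ g h : G, g * h * g⁻¹ * h⁻¹ ∈ Gn)
    (ψ : G → Matrix (Fin 2) (Fin 2) k) (htr : ∀ g, (ψ g).trace = 0)
    (hcoc : ∀ g h, ψ (g * h) = ψ g + twgMAct (ρ g) (ψ h))
    (hvan : ∀ n ∈ Gn, (∃ a : k, (ρ n).1 = a • (1 : Matrix (Fin 2) (Fin 2) k)) → ψ n = 0)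
    (z : G) (c : k) (hz : (ρ z).1 = c • (1 : Matrix (Fin 2) (Fin 2) k)) (hc : c * c ≠ 1) :
    ∃ X : Matrix (Fin 2) (Fin 2) k, X.trace = 0 ∧ ∀ g, ψ g = twgMAct (ρ g) X - X := by
  have hc' : c * c - 1 ≠ 0 := sub_ne_zero.2 hc
  refine ⟨(c * c - 1)⁻¹ • ψ z, ?_, fun g => ?_⟩
  · rw [Matrix.trace_smul, htr, smul_zero]
  · have h := twg_coc_swap Gn hab ψ hcoc hvan z c hz g
    have h1 : (c * c - 1) • ψ g = twgMAct (ρ g) (ψ z) - ψ z := by
      rw [sub_smul, one_smul, sub_eq_sub_iff_add_eq_add, add_comm, h, add_comm]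
    rw [twgx_mact_smul, ← smul_sub, ← h1, smul_smul, inv_mul_cancel₀ hc', one_smul]

variable [DecidableEq k]

/-- **Case B.** -/
theorem twg_cob_caseB (p : ℕ) [Fact p.Prime] [CharP k p] [Finite k] (hp2 : p ≠ 2)
    (hsplit : TwgSplit ρ) (hirr : TwgIrr ρ)
    (hdetsurj : ∀ a : kˣ, a ^ (p - 1) = 1 → ∃ g, Matrix.GeneralLinearGroup.det (ρ g) = a)
    (Gn : Subgroup G) (hab : ∀ g h : G, g * h * g⁻¹ * h⁻¹ ∈ Gn)
    (ψ : G → Matrix (Fin 2) (Fin 2) k) (htr : ∀ g, (ψ g).trace = 0)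
    (hcoc : ∀ g h, ψ (g * h) = ψ g + twgMAct (ρ g) (ψ h))
    (hvan : ∀ n ∈ Gn, (∃ a : k, (ρ n).1 = a • (1 : Matrix (Fin 2) (Fin 2) k)) → ψ n = 0)
    (hZ : ∀ (z : G) (c : k), (ρ z).1 = c • (1 : Matrix (Fin 2) (Fin 2) k) → c * c = 1) :
    ∃ X : Matrix (Fin 2) (Fin 2) k, X.trace = 0 ∧ ∀ g, ψ g = twgMAct (ρ g) X - X := by
  have h2 : (2 : k) ≠ 0 := by
    intro h
    have h2' : ((2 : ℕ) : k) = 0 := by exact_mod_cast h
    rw [CharP.cast_eq_zero_iff k p] at h2'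
    have := (Nat.prime_dvd_prime_iff_eq (Fact.out : p.Prime) Nat.prime_two).1 h2'
    exact hp2 this
  -- (i) ψ vanishes on all scalar elements
  have hψZ : ∀ (z : G) (c : k), (ρ z).1 = c • (1 : Matrix (Fin 2) (Fin 2) k) → ψ z = 0 := by
    intro z c hz
    by_contra hne
    refine twg_no_stable_line h2 hsplit hirr (ψ z) (htr z) hne (fun g => ?_)
    have h := twg_coc_swap Gn hab ψ hcoc hvan z c hz g
    rw [hZ z c hz, one_smul, add_comm] at h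
    have hfix : twgMAct (ρ g) (ψ z) = ψ z := (add_left_cancel h).symm
    have h3 := twgx_mact_mul_right (ρ g) (ψ z)
    rw [hfix] at h3
    refine ⟨((ρ g).1.det)⁻¹, ?_⟩
    rw [h3, smul_smul, inv_mul_cancel₀ (twg_det_ne_zero _), one_smul]
  -- (ii) ψ factors through ρ
  have hker : ∀ g g' : G, ρ g = ρ g' → ψ g = ψ g' := by
    intro g g' hgg
    have hz : (ρ (g⁻¹ * g')).1 = (1 : k) • (1 : Matrix (Fin 2) (Fin 2) k) := by
      rw [map_mul, map_inv, hgg, inv_mul_cancel, one_smul]; rfl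
    have h0 := hψZ _ _ hz
    have : g' = g * (g⁻¹ * g') := by group
    rw [this, hcoc, h0, twgx_mact_zero, add_zero]
  -- (iii) the descended cocycle
  let Γ : Subgroup (GL (Fin 2) k) := ρ.range
  have hpre : ∀ γ : Γ, ∃ g : G, ρ g = γ.1 := fun γ => MonoidHom.mem_range.1 γ.2
  let pre : Γ → G := fun γ => Classical.choose (hpre γ)
  have hpre' : ∀ γ : Γ, ρ (pre γ) = γ.1 := fun γ => Classical.choose_spec (hpre γ)
  let ψ' : Γ → Matrix (Fin 2) (Fin 2) k := fun γ => ψ (pre γ)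
  have hψ' : TwgIsCocycle Γ ψ' := by
    refine ⟨fun γ => htr _, fun γ γ' => ?_⟩
    show ψ (pre (γ * γ')) = ψ (pre γ) + twgMAct γ.1 (ψ (pre γ'))
    have : ρ (pre (γ * γ')) = ρ (pre γ * pre γ') := by
      rw [map_mul, hpre', hpre', hpre']; rfl
    rw [hker _ _ this, hcoc, hpre']
  -- (iv) apply Case B
  have hsplit' : ∀ g ∈ Γ, ∃ x : OnePoint k, g • x = x := by
    rintro _ ⟨g, rfl⟩
    obtain ⟨v, hv, a, hva⟩ := hsplit g
    exact ⟨twgPt v, twg_fix_of_eig _ hv hva⟩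
  have hirr' : ¬ ∃ x : OnePoint k, ∀ g ∈ Γ, g • x = x := by
    rintro ⟨x, hx⟩
    exact twg_irr_top hirr (twgVec x) (twgVec_ne_zero x)
      (fun g => twg_eig_of_fix (ρ g) x (hx (ρ g) ⟨g, rfl⟩))
  have hdetscal' : ∀ g ∈ Γ, (∀ x : OnePoint k, g • x = x) →
      Matrix.GeneralLinearGroup.det g = 1 := by
    rintro _ ⟨g, rfl⟩ hfix
    obtain ⟨a, ha⟩ := twg_scalar_of_fix_all _ hfix
    apply Units.ext
    rw [Matrix.GeneralLinearGroup.val_det_apply, twg_scalar_det _ a ha, hZ g a ha]; rfl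
  have hdetsurj' : ∀ a : kˣ, a ^ (p - 1) = 1 → ∃ g ∈ Γ, Matrix.GeneralLinearGroup.det g = a := by
    intro a ha
    obtain ⟨g, hg⟩ := hdetsurj a ha
    exact ⟨ρ g, ⟨g, rfl⟩, hg⟩
  obtain ⟨X, hX, hcob⟩ := twg_caseB p hp2 Γ hsplit' hirr' hdetscal' hdetsurj' ψ' hψ'
  refine ⟨X, hX, fun g => ?_⟩
  have hg := hcob ⟨ρ g, ⟨g, rfl⟩⟩
  have h5 : ψ (pre ⟨ρ g, ⟨g, rfl⟩⟩) = ψ g := hker _ _ (hpre' _)
  rw [← h5]
  exact hg

/-- **Step C.** -/
theorem twg_cob_of_vanish (p : ℕ) [Fact p.Prime] [CharP k p] [Finite k] (hp2 : p ≠ 2)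
    (hsplit : TwgSplit ρ) (hirr : TwgIrr ρ)
    (hdetsurj : ∀ a : kˣ, a ^ (p - 1) = 1 → ∃ g, Matrix.GeneralLinearGroup.det (ρ g) = a)
    (Gn : Subgroup G) (hab : ∀ g h : G, g * h * g⁻¹ * h⁻¹ ∈ Gn)
    (ψ : G → Matrix (Fin 2) (Fin 2) k) (htr : ∀ g, (ψ g).trace = 0)
    (hcoc : ∀ g h, ψ (g * h) = ψ g + twgMAct (ρ g) (ψ h))
    (hvan : ∀ n ∈ Gn, (∃ a : k, (ρ n).1 = a • (1 : Matrix (Fin 2) (Fin 2) k)) → ψ n = 0) :
    ∃ X : Matrix (Fin 2) (Fin 2) k, X.trace = 0 ∧ ∀ g, ψ g = twgMAct (ρ g) X - X := by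
  by_cases hZ : ∀ (z : G) (c : k), (ρ z).1 = c • (1 : Matrix (Fin 2) (Fin 2) k) → c * c = 1
  · exact twg_cob_caseB p hp2 hsplit hirr hdetsurj Gn hab ψ htr hcoc hvan hZ
  · simp only [not_forall] at hZ
    obtain ⟨z, c, hz, hc⟩ := hZ
    exact twg_cob_sah Gn hab ψ htr hcoc hvan z c hz hc

end Fermat.Agent.S56
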