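import Fermat.Agent.S56.TW.Regular
import Fermat.Agent.S56.TW.Vanish

/-!
# S56 / TW : the main theorem in matrix form
-/

set_option autoImplicit false
set_option linter.unusedSectionVars false

namespace Fermat.Agent.S56

open Matrix OnePoint

variable {k : Type*} [Field k] [DecidableEq k] {G : Type*} [Group G] {ρ : G →* GL (Fin 2) k}

/-- a coboundary at `σ` with `det ρ(σ) = 1` is orthogonal to `ρ(σ)` -/
theorem twg_trace_cob (σ : GL (Fin 2) k) (hσ : σ.1.det = 1) (X : Matrix (Fin 2) (Fin 2) k) :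
    ((twgMAct σ X - X) * σ.1).trace = 0 := by
  rw [Matrix.sub_mul, twgx_mact_mul_right, hσ, one_smul, Matrix.trace_sub, Matrix.trace_mul_comm,
    sub_self]

/-- **TWG, matrix form.** -/
theorem twg_main_mat (p : ℕ) [Fact p.Prime] [CharP k p] [Finite k] (hp2 : p ≠ 2)
    (hsplit : TwgSplit ρ) (hirr : TwgIrr ρ)
    (hdetsurj : ∀ a : kˣ, a ^ (p - 1) = 1 → ∃ g, Matrix.GeneralLinearGroup.det (ρ g) = a)
    (Gn : Subgroup G) (hab : ∀ g h : G, g * h * g⁻¹ * h⁻¹ ∈ Gn)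
    (hGn : ∀ g ∈ Gn, (ρ g).1.det = 1)
    (ψ : G → Matrix (Fin 2) (Fin 2) k) (htr : ∀ g, (ψ g).trace = 0)
    (hcoc : ∀ g h, ψ (g * h) = ψ g + twgMAct (ρ g) (ψ h))
    (hncob : ¬ ∃ X : Matrix (Fin 2) (Fin 2) k, X.trace = 0 ∧ ∀ g, ψ g = twgMAct (ρ g) X - X) :
    ∃ σ ∈ Gn, (ρ σ).1.discr ≠ 0 ∧
      ∀ X : Matrix (Fin 2) (Fin 2) k, X.trace = 0 → ψ σ ≠ twgMAct (ρ σ) X - X := by
  have h2 : (2 : k) ≠ 0 := by
    intro h
    have h2' : ((2 : ℕ) : k) = 0 := by exact_mod_cast h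
    rw [CharP.cast_eq_zero_iff k p] at h2'
    have := (Nat.prime_dvd_prime_iff_eq (Fact.out : p.Prime) Nat.prime_two).1 h2'
    exact hp2 this
  by_contra hcon
  -- every regular element of Gn is a coboundary point, hence orthogonal
  have horth : ∀ σ ∈ Gn, (ρ σ).1.discr ≠ 0 → (ψ σ * (ρ σ).1).trace = 0 := by
    intro σ hσ hd
    by_contra hne
    apply hcon
    refine ⟨σ, hσ, hd, fun X _ hX => ?_⟩
    apply hne
    rw [hX]
    exact twg_trace_cob (ρ σ) (hGn σ hσ) X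
  -- (1) ψ does not vanish on the scalar part of Gn
  have hne : ∃ n ∈ Gn, (∃ a : k, (ρ n).1 = a • (1 : Matrix (Fin 2) (Fin 2) k)) ∧ ψ n ≠ 0 := by
    by_contra h
    simp only [not_exists, not_and, not_not] at h
    exact hncob (twg_cob_of_vanish p hp2 hsplit hirr hdetsurj Gn hab ψ htr hcoc
      (fun n hn hsc => h n hn hsc))
  -- (2) a regular element
  obtain ⟨σ₀, hσ₀, hd₀⟩ := twg_exists_regular h2 hsplit hirr Gn hab hGn
  -- (3) the stable set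
  let S : Set (Matrix (Fin 2) (Fin 2) k) :=
    {Y | ∃ n ∈ Gn, (∃ a : k, (ρ n).1 = a • (1 : Matrix (Fin 2) (Fin 2) k)) ∧ Y = ψ n}
  have hS0 : ∀ X ∈ S, X.trace = 0 := by
    rintro X ⟨n, _, _, rfl⟩
    exact htr n
  have hone : ψ 1 = 0 := twg_coc_one ψ hcoc
  have hact : ∀ n ∈ Gn, (∃ a : k, (ρ n).1 = a • (1 : Matrix (Fin 2) (Fin 2) k)) →
      ∀ X, twgMAct (ρ n) X = X := by
    rintro n hn ⟨a, ha⟩ X
    rw [twgx_mact_scalar _ a ha, ← twg_scalar_det _ a ha, hGn n hn, one_smul]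
  have hSst : ∀ g, ∀ X ∈ S, twgMAct (ρ g) X ∈ S := by
    rintro g X ⟨n, hn, ⟨a, ha⟩, rfl⟩
    refine ⟨g * n * g⁻¹, twg_normal_of_comm Gn hab g hn, ⟨a, ?_⟩, ?_⟩
    · rw [twg_rho_mul, twg_rho_mul, ha, Matrix.mul_smul, Matrix.mul_one, Matrix.smul_mul,
        twg_rho_mul_inv]
    · have h1 : ψ g + twgMAct (ρ g) (ψ g⁻¹) = 0 := by
        rw [← hcoc, mul_inv_cancel, hone]
      rw [mul_assoc, hcoc, hcoc n g⁻¹, hact n hn ⟨a, ha⟩, twgx_mact_add, ← add_assoc,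
        add_comm (ψ g), add_assoc, h1, add_zero]
  have hSne : ∃ X ∈ S, X ≠ 0 := by
    obtain ⟨n, hn, hsc, hψn⟩ := hne
    exact ⟨ψ n, ⟨n, hn, hsc, rfl⟩, hψn⟩
  -- (4) the trace-zero part of ρ(σ₀) is orthogonal to S
  have hY0 : (twgTz (ρ σ₀).1).trace = 0 := twgTz_trace h2 _
  have hperp : ∀ X ∈ S, (X * twgTz (ρ σ₀).1).trace = 0 := by
    rintro X ⟨τ, hτ, ⟨a, ha⟩, rfl⟩
    have e0 := horth σ₀ hσ₀ hd₀
    have ha1 : a * a = 1 := by rw [← twg_scalar_det _ a ha, hGn τ hτ]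
    have ha0 : a ≠ 0 := by
      rintro rfl
      rw [mul_zero] at ha1
      exact zero_ne_one ha1
    have hρ : (ρ (τ * σ₀)).1 = a • (ρ σ₀).1 := by
      rw [twg_rho_mul, ha, Matrix.smul_mul, Matrix.one_mul]
    have hd : (ρ (τ * σ₀)).1.discr ≠ 0 := by
      rw [hρ, Matrix.discr_fin_two, Matrix.trace_smul, Matrix.det_smul, Fintype.card_fin,
        smul_eq_mul]
      rw [Matrix.discr_fin_two] at hd₀
      intro h
      apply hd₀
      have : (a * a) * ((ρ σ₀).1.trace ^ 2 - 4 * (ρ σ₀).1.det) = 0 := by linear_combination h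
      rw [ha1, one_mul] at this
      exact this
    have e1 := horth (τ * σ₀) (Gn.mul_mem hτ hσ₀) hd
    rw [hcoc, hact τ hτ ⟨a, ha⟩, hρ, Matrix.mul_smul, Matrix.trace_smul, smul_eq_mul,
      Matrix.add_mul, Matrix.trace_add, e0, add_zero] at e1
    have e2 := (mul_eq_zero.1 e1).resolve_left ha0
    unfold twgTz
    rw [Matrix.mul_sub, Matrix.trace_sub, e2, Matrix.mul_smul, Matrix.mul_one, Matrix.trace_smul,
      htr, smul_zero, sub_zero]
  -- (5) conclusion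
  have hzero := twg_perp_zero h2 hsplit hirr S hS0 hSst hSne _ hY0 hperp
  apply hd₀
  rw [twg_discr_eq_zero_iff h2]
  refine ⟨(ρ σ₀).1.trace / 2, ?_⟩
  have : (ρ σ₀).1 - ((ρ σ₀).1.trace / 2) • (1 : Matrix (Fin 2) (Fin 2) k) = 0 := hzero
  rw [this, Matrix.zero_mul]

end Fermat.Agent.S56
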