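import Fermat.Agent.S56.TW.Defs
import Fermat.Agent.S56.TW.MainMat

/-!
# S56 / TW : the abstract group-theoretic core of the Taylor-Wiles killing argument

Transport of `twg_main_mat` (matrix form) to `Module.End k V` (`twg_main_concrete`) and to abstract
coefficients (`twg_main`).
-/

set_option autoImplicit false
set_option linter.unusedSectionVars false

namespace Fermat.Agent.S56

open Polynomial

section Roots

variable {k : Type*} [Field k] [Finite k]

/-- a `(p-1)`-th root of unity of a finite field of characteristic `p` lies in the prime field -/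
theorem twg_exists_zmod_unit (p : ℕ) [Fact p.Prime] [CharP k p] (a : kˣ) (ha : a ^ (p - 1) = 1) :
    ∃ u : (ZMod p)ˣ, ZMod.castHom (dvd_refl p) k ((u : (ZMod p)ˣ) : ZMod p) = (a : k) := by
  classical
  have : Fintype k := Fintype.ofFinite k
  let f : (ZMod p)ˣ →* kˣ := Units.map (ZMod.castHom (dvd_refl p) k : ZMod p →* k)
  have hf : Function.Injective f :=
    Units.map_injective (RingHom.injective (ZMod.castHom (dvd_refl p) k))
  have hp1 : 0 < p - 1 := Nat.sub_pos_of_lt (Fact.out : p.Prime).one_lt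
  have hST : Finset.univ.image f ⊆ Finset.univ.filter (fun a : kˣ => a ^ (p - 1) = 1) := by
    intro x hx
    obtain ⟨u, _, rfl⟩ := Finset.mem_image.1 hx
    rw [Finset.mem_filter]
    refine ⟨Finset.mem_univ _, ?_⟩
    rw [← map_pow, ZMod.units_pow_card_sub_one_eq_one, map_one]
  have hcard : (Finset.univ.filter (fun a : kˣ => a ^ (p - 1) = 1)).card ≤
      (Finset.univ.image f).card := by
    rw [Finset.card_image_of_injective _ hf, Finset.card_univ, ZMod.card_units]
    exact IsCyclic.card_pow_eq_one_le hp1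
  have hEq := Finset.eq_of_subset_of_card_le hST hcard
  have : a ∈ Finset.univ.image f := by
    rw [hEq, Finset.mem_filter]
    exact ⟨Finset.mem_univ _, ha⟩
  obtain ⟨u, _, hu⟩ := Finset.mem_image.1 this
  refine ⟨u, ?_⟩
  rw [← hu]
  rfl

end Roots

variable {k : Type*} [Field k] [Finite k] {V : Type*} [AddCommGroup V] [Module k V]
  [Module.Finite k V]
  {G : Type*} [Group G]

/-- **TWG (concrete model).** -/
theorem twg_main_concrete (p : ℕ) [Fact p.Prime] [CharP k p] (hp2 : p ≠ 2)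
    (hV : Module.finrank k V = 2)
    (ρ : G →* Module.End k V) (χ : G →* (ZMod p)ˣ) (hχ : Function.Surjective χ)
    (hdet : ∀ g, LinearMap.det (ρ g) = twgChi p χ g)
    (hsplit : ∀ g, ∃ α β : k, LinearMap.charpoly (ρ g) = (X - C α) * (X - C β))
    (hirr : ∀ H : Subgroup G, H.index = 1 ∨ H.index = 2 →
      ∀ L : Submodule k V, (∀ g ∈ H, ∀ x ∈ L, ρ g x ∈ L) → L = ⊥ ∨ L = ⊤)
    (Gn : Subgroup G) (hab : ∀ g h : G, g * h * g⁻¹ * h⁻¹ ∈ Gn) (hGnχ : ∀ g ∈ Gn, χ g = 1)
    (ψ : G → Module.End k V) (htr : ∀ g, LinearMap.trace k V (ψ g) = 0)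
    (hcoc : ∀ g h, ψ (g * h) = ψ g + twgAct ρ (twgChi p χ) g (ψ h))
    (hncob : ¬ ∃ X : Module.End k V, LinearMap.trace k V X = 0 ∧
      ∀ g, ψ g = twgAct ρ (twgChi p χ) g X - X) :
    ∃ σ ∈ Gn, (∃ α β : k, α ≠ β ∧ LinearMap.charpoly (ρ σ) = (X - C α) * (X - C β)) ∧
      ∀ X : Module.End k V, LinearMap.trace k V X = 0 →
        ψ σ ≠ twgAct ρ (twgChi p χ) σ X - X := by
  classical
  let b : Module.Basis (Fin 2) k V := Module.finBasisOfFinrankEq k V hV
  let Φ : Module.End k V ≃ₐ[k] Matrix (Fin 2) (Fin 2) k := LinearMap.toMatrixAlgEquiv b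
  have hΦ : ∀ f : Module.End k V, Φ f = LinearMap.toMatrix b b f := fun f => rfl
  let ρ' : G →* GL (Fin 2) k :=
    (Units.map (Φ : Module.End k V →* Matrix (Fin 2) (Fin 2) k)).comp ρ.toHomUnits
  have hρ' : ∀ g, (ρ' g).1 = Φ (ρ g) := fun g => rfl
  have hdet' : ∀ g, (ρ' g).1.det = twgChi p χ g := by
    intro g
    rw [hρ', hΦ, LinearMap.det_toMatrix, hdet]
  have htrΦ : ∀ f : Module.End k V, (Φ f).trace = LinearMap.trace k V f := by
    intro f
    rw [hΦ, ← LinearMap.trace_eq_matrix_trace]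
  have hact : ∀ g (Y : Module.End k V),
      twgMAct (ρ' g) (Φ Y) = Φ (twgAct ρ (twgChi p χ) g Y) := by
    intro g Y
    have hinv : ((ρ' g)⁻¹).1 = Φ (ρ g⁻¹) := by
      rw [← map_inv, hρ']
    rw [twgx_mact_eq, hdet', hinv, hρ']
    unfold twgAct
    rw [map_smul, map_mul, map_mul]
  -- hypotheses of the matrix form
  have hsplit' : TwgSplit ρ' := by
    intro g
    obtain ⟨α, β, hαβ⟩ := hsplit g
    have h1 : ((Matrix.scalar (Fin 2)) α - (ρ' g).1).det = 0 := by
      rw [← Matrix.eval_charpoly, hρ', hΦ, LinearMap.charpoly_toMatrix, hαβ]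
      simp
    obtain ⟨v, hv, hv0⟩ := Matrix.exists_mulVec_eq_zero_iff.2 h1
    refine ⟨v, hv, α, ?_⟩
    rw [Matrix.sub_mulVec, sub_eq_zero] at hv0
    rw [← hv0]
    simp [Matrix.scalar_apply]
  have hirr' : TwgIrr ρ' := by
    intro H hidx v hv hH
    set x : V := b.equivFun.symm v with hx
    have hrepr : ⇑(b.repr x) = v := by
      have := b.equivFun.apply_symm_apply v
      rw [← hx] at this
      rw [← this]; rfl
    have hx0 : x ≠ 0 := by
      intro h0
      apply hv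
      rw [← hrepr, h0]
      simp
    have hstab : ∀ g ∈ H, ∃ a : k, ρ g x = a • x := by
      intro g hg
      obtain ⟨a, ha⟩ := hH g hg
      refine ⟨a, ?_⟩
      apply b.repr.injective
      apply DFunLike.coe_injective
      rw [← LinearMap.toMatrix_mulVec_repr b b (ρ g) x, hrepr, ← hΦ, ← hρ', ha, map_smul]
      rw [Finsupp.coe_smul, hrepr]
    rcases hirr H hidx (k ∙ x) (by
      intro g hg y hy
      obtain ⟨c, rfl⟩ := Submodule.mem_span_singleton.1 hy
      obtain ⟨a, ha⟩ := hstab g hg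
      rw [map_smul, ha, smul_smul]
      exact Submodule.mem_span_singleton.2 ⟨c * a, rfl⟩) with h | h
    · exact hx0 (Submodule.span_singleton_eq_bot.1 h)
    · have h1 := finrank_span_singleton (K := k) hx0
      rw [h, finrank_top, hV] at h1
      exact absurd h1 (by norm_num)
  have hdetsurj' : ∀ a : kˣ, a ^ (p - 1) = 1 →
      ∃ g, Matrix.GeneralLinearGroup.det (ρ' g) = a := by
    intro a ha
    obtain ⟨u, hu⟩ := twg_exists_zmod_unit p a ha
    obtain ⟨g, rfl⟩ := hχ u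
    refine ⟨g, Units.ext ?_⟩
    rw [Matrix.GeneralLinearGroup.val_det_apply, hdet', ← hu]
    rfl
  have hGn' : ∀ g ∈ Gn, (ρ' g).1.det = 1 := by
    intro g hg
    rw [hdet']
    unfold twgChi
    rw [hGnχ g hg]
    simp
  have hcoc' : ∀ g h, Φ (ψ (g * h)) = Φ (ψ g) + twgMAct (ρ' g) (Φ (ψ h)) := by
    intro g h
    rw [hcoc, map_add, hact]
  have hncob' : ¬ ∃ X : Matrix (Fin 2) (Fin 2) k, X.trace = 0 ∧
      ∀ g, Φ (ψ g) = twgMAct (ρ' g) X - X := by
    rintro ⟨X, hX, hcob⟩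
    apply hncob
    refine ⟨Φ.symm X, ?_, fun g => ?_⟩
    · rw [← htrΦ, AlgEquiv.apply_symm_apply, hX]
    · apply Φ.injective
      rw [hcob g, map_sub, ← hact, AlgEquiv.apply_symm_apply]
  obtain ⟨σ, hσ, hdisc, hσne⟩ := twg_main_mat p hp2 hsplit' hirr' hdetsurj' Gn hab hGn'
    (fun g => Φ (ψ g)) (fun g => by rw [htrΦ, htr]) hcoc' hncob'
  refine ⟨σ, hσ, ?_, fun X hX hcon => ?_⟩
  · obtain ⟨α, β, hαβ⟩ := hsplit σ
    refine ⟨α, β, ?_, hαβ⟩
    rintro rfl
    apply hdisc
    have hcp : (ρ' σ).1.charpoly = (X - C α) * (X - C α) := by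
      rw [hρ', hΦ, LinearMap.charpoly_toMatrix, hαβ]
    rw [Matrix.charpoly_fin_two] at hcp
    have e0 := congrArg (Polynomial.eval 0) hcp
    have e1 := congrArg (Polynomial.eval 1) hcp
    simp only [eval_add, eval_sub, eval_mul, eval_pow, eval_X, eval_C] at e0 e1
    rw [Matrix.discr_fin_two]
    have hdt : (ρ' σ).1.det = α * α := by linear_combination e0
    have htr' : (ρ' σ).1.trace = 2 * α := by linear_combination e0 - e1
    rw [hdt, htr']
    ring
  · apply hσne (Φ X) (by rw [htrΦ, hX])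
    show Φ (ψ σ) = _
    rw [hcon, map_sub, hact]

/-- **TWG (abstract coefficients).** -/
theorem twg_main (p : ℕ) [Fact p.Prime] [CharP k p] (hp2 : p ≠ 2)
    (hV : Module.finrank k V = 2)
    (ρ : G →* Module.End k V) (χ : G →* (ZMod p)ˣ) (hχ : Function.Surjective χ)
    (hdet : ∀ g, LinearMap.det (ρ g) = twgChi p χ g)
    (hsplit : ∀ g, ∃ α β : k, LinearMap.charpoly (ρ g) = (X - C α) * (X - C β))
    (hirr : ∀ H : Subgroup G, H.index = 1 ∨ H.index = 2 →
      ∀ L : Submodule k V, (∀ g ∈ H, ∀ x ∈ L, ρ g x ∈ L) → L = ⊥ ∨ L = ⊤)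
    (Gn : Subgroup G) (hab : ∀ g h : G, g * h * g⁻¹ * h⁻¹ ∈ Gn) (hGnχ : ∀ g ∈ Gn, χ g = 1)
    {N : Type*} [AddCommGroup N] (act : G →* AddMonoid.End N)
    (e : N ≃+ ↥(LinearMap.ker (LinearMap.trace k V)))
    (he : ∀ g n, ((e (act g n) : ↥(LinearMap.ker (LinearMap.trace k V))) : Module.End k V) =
      twgAct ρ (twgChi p χ) g ((e n : ↥(LinearMap.ker (LinearMap.trace k V))) : Module.End k V))
    (y : G → N) (hy : ∀ g h, y (g * h) = y g + act g (y h))
    (hncob : ¬ ∃ m : N, ∀ g, y g = act g m - m) :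
    ∃ σ ∈ Gn, (∃ α β : k, α ≠ β ∧ LinearMap.charpoly (ρ σ) = (X - C α) * (X - C β)) ∧
      ∀ m : N, y σ ≠ act σ m - m := by
  obtain ⟨σ, hσ, hreg, hne⟩ := twg_main_concrete p hp2 hV ρ χ hχ hdet hsplit hirr Gn hab hGnχ
    (fun g => ((e (y g) : ↥(LinearMap.ker (LinearMap.trace k V))) : Module.End k V))
    (fun g => LinearMap.mem_ker.1 (e (y g)).2)
    (fun g h => by
      show ((e (y (g * h)) : ↥(LinearMap.ker (LinearMap.trace k V))) : Module.End k V) = _
      rw [hy, map_add, Submodule.coe_add, he])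
    (by
      rintro ⟨X, hX, hcob⟩
      apply hncob
      refine ⟨e.symm ⟨X, LinearMap.mem_ker.2 hX⟩, fun g => ?_⟩
      apply e.injective
      apply Subtype.ext
      rw [map_sub, Submodule.coe_sub, he, AddEquiv.apply_symm_apply]
      exact hcob g)
  refine ⟨σ, hσ, hreg, fun m hm => ?_⟩
  apply hne ((e m : ↥(LinearMap.ker (LinearMap.trace k V))) : Module.End k V)
    (LinearMap.mem_ker.1 (e m).2)
  show ((e (y σ) : ↥(LinearMap.ker (LinearMap.trace k V))) : Module.End k V) = _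
  rw [hm, map_sub, Submodule.coe_sub, he]

end Fermat.Agent.S56
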