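import Fermat.Agent.S56.Top.AdDefs
import Fermat.Agent.S55.SB.Root
import Fermat.Agent.S56.TW.Main

/-!
# S56 / TW : `twg_main` in the frozen S56 language

`twg_frozen`: the group-theoretic core of the Taylor-Wiles killing argument for
`M* = (s56Ad0Rep p ρbar).dualTwist (cycloChar p)`, with the hypotheses of the frozen statement.
-/

set_option autoImplicit false
set_option linter.unusedSectionVars false
set_option linter.unusedVariables false

noncomputable section

namespace Fermat.Agent.S56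

open Fermat.Agent.S55 Fermat.Agent.S14 ExtCitation Polynomial

/-! ### (B1) the mod `p` cyclotomic character is onto -/

local instance twgf_isAlgebraic : Algebra.IsAlgebraic ℚ (AlgebraicClosure ℚ) :=
  AlgebraicClosure.isAlgebraic ℚ
local instance twgf_isAlgClosure : IsAlgClosure ℚ (AlgebraicClosure ℚ) :=
  ⟨inferInstance, inferInstance⟩
local instance twgf_normal : Normal ℚ (AlgebraicClosure ℚ) :=
  IsAlgClosure.normal ℚ (AlgebraicClosure ℚ)

theorem twgf_cycloChar_surjective (p : ℕ) [Fact p.Prime] :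
    Function.Surjective (cycloChar p) := by
  intro u
  have hp : p.Prime := Fact.out
  have : NeZero p := ⟨hp.ne_zero⟩
  obtain ⟨ζ, hζ⟩ := plumb_exists_primitiveRoot p
  let E : IntermediateField ℚ (AlgebraicClosure ℚ) := IntermediateField.adjoin ℚ {ζ}
  have hcyc : IsCyclotomicExtension {p} ℚ E :=
    hζ.intermediateField_adjoin_isCyclotomicExtension ℚ
  have : IsGalois ℚ E := IsCyclotomicExtension.isGalois {p} ℚ E
  have hirr : Irreducible (cyclotomic p ℚ) := cyclotomic.irreducible_rat hp.pos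
  set τ : E ≃ₐ[ℚ] E := (IsCyclotomicExtension.autEquivPow E hirr).symm u with hτ
  have hτu : IsCyclotomicExtension.autEquivPow E hirr τ = u := by
    rw [hτ, MulEquiv.apply_symm_apply]
  have hz := IsCyclotomicExtension.zeta_spec p ℚ E
  have hspec := hz.autToPow_spec ℚ τ
  have hτu' : hz.autToPow ℚ τ = u := hτu
  rw [hτu'] at hspec
  obtain ⟨σ, hσ⟩ := AlgEquiv.restrictNormalHom_surjective (F := ℚ) (K₁ := E)
    (AlgebraicClosure ℚ) τ
  refine ⟨σ, ?_⟩
  set z : AlgebraicClosure ℚ := ((IsCyclotomicExtension.zeta p ℚ E : E) : AlgebraicClosure ℚ)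
    with hzdef
  have hzprim : IsPrimitiveRoot z p :=
    hz.map_of_injective (f := E.val) (Subtype.val_injective)
  have hσz : σ z = z ^ ((u : (ZMod p)ˣ) : ZMod p).val := by
    have h1 := AlgEquiv.restrictNormal_commutes σ E (IsCyclotomicExtension.zeta p ℚ E)
    have h2 : AlgEquiv.restrictNormal σ E = τ := hσ
    rw [h2, ← hspec] at h1
    rw [hzdef]
    exact h1.symm.trans (by simp)
  have h3 := plumb_cycloExp_eq_of_pow p σ hzprim _ hσz
  apply Units.ext
  rw [coe_cycloChar, h3, ZMod.natCast_zmod_val]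

/-! ### (B2) the determinant -/

theorem twgf_det {k : Type} [Field k] (p : ℕ) [Fact p.Prime] [CharP k p]
    (ρbar : ResidualGaloisRep k)
    (hdet : (GaloisRepAdic.ofResidualGaloisRep ρbar).DetIsCyclotomic p) (g : GQ) :
    LinearMap.det (ρbar.ρ g) = twgChi p (cycloChar p) g := by
  have h := hdet.2 1 g (((cycloChar p g : (ZMod p)ˣ) : ZMod p).val) (fun μ hμ => by
    rw [pow_one] at hμ
    exact sb_cycloChar_spec g hμ)
  have h0 : (((p ^ 1 : ℕ)) : k) = 0 := by rw [pow_one]; exact CharP.cast_eq_zero k p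
  rw [h0, Ideal.mem_span_singleton, zero_dvd_iff, sub_eq_zero] at h
  have h' : LinearMap.det (ρbar.ρ g) = ((((cycloChar p g : (ZMod p)ˣ) : ZMod p).val : ℕ) : k) := h
  unfold twgChi
  rw [h', ← map_natCast (ZMod.castHom (dvd_refl p) k), ZMod.natCast_zmod_val]

/-! ### (B3) irreducibility over `k` on subgroups of index `≤ 2` -/

section Irr

open TensorProduct

variable {k : Type} [Field k] (ρbar : ResidualGaloisRep k)

/-- a stable proper non-zero subspace gives a common eigenvector -/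
theorem twgf_exists_eig (H : Subgroup GQ) (L : Submodule k ρbar.V)
    (hL : ∀ g ∈ H, ∀ x ∈ L, ρbar.ρ g x ∈ L) (h0 : L ≠ ⊥) (h1 : L ≠ ⊤) :
    ∃ x : ρbar.V, x ≠ 0 ∧ ∀ g ∈ H, ∃ a : k, ρbar.ρ g x = a • x := by
  have hfin : Module.finrank k L = 1 := by
    have hlt := Submodule.finrank_lt h1
    rw [ρbar.finrank_eq] at hlt
    have hpos : 1 ≤ Module.finrank k L := Submodule.one_le_finrank_iff.2 h0
    omega
  obtain ⟨v, hv, hspan⟩ := finrank_eq_one_iff'.1 hfin
  refine ⟨v.1, fun h => hv (Subtype.ext h), fun g hg => ?_⟩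
  obtain ⟨c, hc⟩ := hspan ⟨ρbar.ρ g v.1, hL g hg v.1 v.2⟩
  exact ⟨c, (congrArg Subtype.val hc).symm⟩

/-- a common eigenvector over `k` gives a stable line in every base change -/
theorem twgf_line (K : Type) [Field K] [Algebra k K] (H : Subgroup GQ) (x : ρbar.V) (hx : x ≠ 0)
    (hH : ∀ g ∈ H, ∃ a : k, ρbar.ρ g x = a • x) :
    ∃ W : Submodule K (ρbar.baseChange K).V,
      (∀ σ ∈ H, ∀ w ∈ W, (ρbar.baseChange K).ρ σ w ∈ W) ∧ W ≠ ⊥ ∧ W ≠ ⊤ := by
  have hx' : ((1 : K) ⊗ₜ[k] x : K ⊗[k] ρbar.V) ≠ 0 := by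
    intro h
    apply hx
    have hinj := Module.Flat.tensorProduct_mk_injective k ρbar.V K
    apply hinj
    rw [map_zero]
    exact h
  refine ⟨(K ∙ ((1 : K) ⊗ₜ[k] x : K ⊗[k] ρbar.V) : Submodule K (K ⊗[k] ρbar.V)), ?_, ?_, ?_⟩
  · intro σ hσ w hw
    obtain ⟨c, rfl⟩ := Submodule.mem_span_singleton.1 hw
    obtain ⟨a, ha⟩ := hH σ hσ
    have h1 : (ρbar.baseChange K).ρ σ (c • ((1 : K) ⊗ₜ[k] x : K ⊗[k] ρbar.V)) =
        (c * algebraMap k K a) • ((1 : K) ⊗ₜ[k] x : K ⊗[k] ρbar.V) := by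
      show (ρbar.ρ σ).baseChange K (c • ((1 : K) ⊗ₜ[k] x)) = _
      rw [map_smul, LinearMap.baseChange_tmul, ha, TensorProduct.tmul_smul, mul_smul,
        algebraMap_smul]
    rw [h1]
    exact Submodule.smul_mem _ _ (Submodule.mem_span_singleton_self _)
  · intro h
    exact hx' (Submodule.span_singleton_eq_bot.1 h)
  · intro h
    have h1 := finrank_span_singleton (K := K) hx'
    rw [h, finrank_top] at h1
    have h2 : Module.finrank K (K ⊗[k] ρbar.V) = 2 := (ρbar.baseChange K).finrank_eq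
    omega

theorem twgf_hirr (habs : ρbar.IsAbsolutelyIrreducible)
    (hTW : ∀ (K : Type) [Field K] [Algebra k K] (G : Subgroup GQ), G.index = 2 →
      ∀ V : Submodule K (ρbar.baseChange K).V,
        (∀ σ ∈ G, ∀ x ∈ V, (ρbar.baseChange K).ρ σ x ∈ V) → V = ⊥ ∨ V = ⊤)
    (H : Subgroup GQ) (hH : H.index = 1 ∨ H.index = 2) (L : Submodule k ρbar.V)
    (hL : ∀ g ∈ H, ∀ x ∈ L, ρbar.ρ g x ∈ L) : L = ⊥ ∨ L = ⊤ := by
  by_contra hcon
  simp only [not_or] at hcon
  obtain ⟨x, hx, hxH⟩ := twgf_exists_eig ρbar H L hL hcon.1 hcon.2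
  obtain ⟨W, hW, hW0, hW1⟩ := twgf_line ρbar (AlgebraicClosure k) H x hx hxH
  rcases hH with h | h
  · have htop : H = ⊤ := Subgroup.index_eq_one.1 h
    rcases habs W (fun σ w hw => hW σ (by rw [htop]; exact Subgroup.mem_top σ) w hw) with h' | h'
    · exact hW0 h'
    · exact hW1 h'
  · rcases hTW (AlgebraicClosure k) H h W hW with h' | h'
    · exact hW0 h'
    · exact hW1 h'

end Irr

/-! ### (B4) `M* ≃ ad⁰` through a trace pairing -/

section Dual

variable {k : Type} [Field k] [Finite k] (p : ℕ) [Fact p.Prime] [CharP k p]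

/-- an `𝔽_p`-linear functional `t` on `k` with `t 1 = 1` -/
theorem twgf_exists_functional :
    ∃ t : k →+ ZMod p,
      (∀ (c : ZMod p) (a : k), t (ZMod.castHom (dvd_refl p) k c * a) = c * t a) ∧ t 1 = 1 := by
  let _ : Algebra (ZMod p) k := (ZMod.castHom (dvd_refl p) k).toAlgebra
  have hinj : Function.Injective (Algebra.linearMap (ZMod p) k) :=
    (ZMod.castHom (dvd_refl p) k).injective
  obtain ⟨t', ht'⟩ := LinearMap.exists_leftInverse_of_injective (Algebra.linearMap (ZMod p) k)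
    (LinearMap.ker_eq_bot.2 hinj)
  refine ⟨t'.toAddMonoidHom, fun c a => ?_, ?_⟩
  · show t' (algebraMap (ZMod p) k c * a) = c * t' a
    rw [← Algebra.smul_def, map_smul, smul_eq_mul]
  · have := congrArg (fun f : ZMod p →ₗ[ZMod p] ZMod p => f 1) ht'
    simpa using this

theorem twgf_functional_nondeg (t : k →+ ZMod p) (ht1 : t 1 = 1) (a : k)
    (h : ∀ b : k, t (b * a) = 0) : a = 0 := by
  by_contra ha
  have := h a⁻¹
  rw [inv_mul_cancel₀ ha, ht1] at this
  exact one_ne_zero this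

variable (ρbar : ResidualGaloisRep k)

/-- the pairing `X ↦ (Y ↦ t (tr (X Y)))` -/
def twgfTheta (t : k →+ ZMod p)
    (ht : ∀ (c : ZMod p) (a : k), t (ZMod.castHom (dvd_refl p) k c * a) = c * t a) :
    S56Ad0 ρbar →ₗ[ZMod p] Module.Dual (ZMod p) (S56Ad0 ρbar) where
  toFun X :=
    { toFun := fun Y => t (LinearMap.trace k ρbar.V (X.val * Y.val))
      map_add' := fun Y Y' => by
        rw [S56Ad0.val_add, mul_add, map_add, map_add]
      map_smul' := fun c Y => by
        rw [s56_zmod_smul_def, S56Ad0.val_smul, mul_smul_comm, map_smul, smul_eq_mul, ht,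
          RingHom.id_apply, smul_eq_mul] }
  map_add' X X' := by
    ext Y
    show t (LinearMap.trace k ρbar.V ((X + X').val * Y.val)) = _
    rw [S56Ad0.val_add, add_mul, map_add, map_add]
    rfl
  map_smul' c X := by
    ext Y
    show t (LinearMap.trace k ρbar.V ((c • X).val * Y.val)) = _
    rw [s56_zmod_smul_def, S56Ad0.val_smul, smul_mul_assoc, map_smul, smul_eq_mul, ht]
    rfl

theorem twgfTheta_apply (t : k →+ ZMod p)
    (ht : ∀ (c : ZMod p) (a : k), t (ZMod.castHom (dvd_refl p) k c * a) = c * t a)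
    (X Y : S56Ad0 ρbar) :
    twgfTheta p ρbar t ht X Y = t (LinearMap.trace k ρbar.V (X.val * Y.val)) := rfl

/-- the trace form is non-degenerate on trace-zero endomorphisms (`p ≠ 2`) -/
theorem twgf_trace_nondeg (h2 : (2 : k) ≠ 0) (X : S56Ad0 ρbar)
    (h : ∀ Y : S56Ad0 ρbar, LinearMap.trace k ρbar.V (X.val * Y.val) = 0) : X = 0 := by
  classical
  have hall : ∀ Z : Module.End k ρbar.V, LinearMap.trace k ρbar.V (X.val * Z) = 0 := by
    intro Z
    set c : k := LinearMap.trace k ρbar.V Z / 2 with hc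
    have htr1 : LinearMap.trace k ρbar.V (1 : Module.End k ρbar.V) = 2 := by
      rw [LinearMap.trace_one, ρbar.finrank_eq]; norm_num
    have hZ0 : LinearMap.trace k ρbar.V (Z - c • (1 : Module.End k ρbar.V)) = 0 := by
      rw [map_sub, map_smul, htr1, hc, smul_eq_mul, div_mul_cancel₀ _ h2, sub_self]
    have h1 := h (S56Ad0.mk _ hZ0)
    rw [S56Ad0.val_mk, mul_sub, map_sub, mul_smul_comm, mul_one, map_smul, X.trace_val,
      smul_zero, sub_zero] at h1
    exact h1
  let b : Module.Basis (Fin 2) k ρbar.V := Module.finBasisOfFinrankEq k ρbar.V ρbar.finrank_eq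
  have hmat : LinearMap.toMatrix b b X.val = 0 := by
    rw [Matrix.ext_iff_trace_mul_left]
    intro M
    rw [Matrix.mul_zero, Matrix.trace_zero]
    have hM : M = LinearMap.toMatrix b b (Matrix.toLin b b M) := (LinearMap.toMatrix_toLin b b M).symm
    rw [hM, ← LinearMap.toMatrix_mul, ← LinearMap.trace_eq_matrix_trace, LinearMap.trace_mul_comm]
    exact hall _
  apply S56Ad0.ext
  rw [S56Ad0.val_zero]
  exact (LinearMap.toMatrix b b).injective (by rw [hmat, map_zero])

theorem twgfTheta_injective (h2 : (2 : k) ≠ 0) (t : k →+ ZMod p)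
    (ht : ∀ (c : ZMod p) (a : k), t (ZMod.castHom (dvd_refl p) k c * a) = c * t a)
    (ht1 : t 1 = 1) : Function.Injective (twgfTheta p ρbar t ht) := by
  rw [← LinearMap.ker_eq_bot, LinearMap.ker_eq_bot']
  intro X hX
  apply twgf_trace_nondeg ρbar h2 X
  intro Y
  apply twgf_functional_nondeg p t ht1
  intro b
  have := congrArg (fun f : Module.Dual (ZMod p) (S56Ad0 ρbar) => f (b • Y)) hX
  simp only [twgfTheta_apply, LinearMap.zero_apply] at this
  rw [S56Ad0.val_smul, mul_smul_comm, map_smul, smul_eq_mul] at this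
  exact this

theorem twgfTheta_bijective (h2 : (2 : k) ≠ 0) (t : k →+ ZMod p)
    (ht : ∀ (c : ZMod p) (a : k), t (ZMod.castHom (dvd_refl p) k c * a) = c * t a)
    (ht1 : t 1 = 1) : Function.Bijective (twgfTheta p ρbar t ht) := by
  have hinj := twgfTheta_injective p ρbar h2 t ht ht1
  refine ⟨hinj, ?_⟩
  exact (LinearMap.injective_iff_surjective_of_finrank_eq_finrank
    (Subspace.dual_finrank_eq (K := ZMod p) (V := S56Ad0 ρbar)).symm).1 hinj

/-- equivariance of the pairing -/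
theorem twgfTheta_equivariant (t : k →+ ZMod p)
    (ht : ∀ (c : ZMod p) (a : k), t (ZMod.castHom (dvd_refl p) k c * a) = c * t a)
    (g : GQ) (X X' : S56Ad0 ρbar)
    (hX' : X'.val = twgAct ρbar.ρ (twgChi p (cycloChar p)) g X.val) :
    twgfTheta p ρbar t ht X' =
      ((s56Ad0Rep p ρbar).dualTwist (cycloChar p)).ρ g (twgfTheta p ρbar t ht X) := by
  ext Y
  rw [Rep.dualTwist_ρ_apply]
  show t (LinearMap.trace k ρbar.V (X'.val * Y.val)) =
    ((cycloChar p g : (ZMod p)ˣ) : ZMod p) *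
      t (LinearMap.trace k ρbar.V (X.val * (ρbar.ρ g⁻¹ * Y.val * ρbar.ρ g⁻¹⁻¹)))
  rw [hX', inv_inv, ← ht]
  congr 1
  unfold twgAct twgChi
  rw [smul_mul_assoc, map_smul, smul_eq_mul]
  congr 1
  calc LinearMap.trace k ρbar.V (ρbar.ρ g * X.val * ρbar.ρ g⁻¹ * Y.val)
      = LinearMap.trace k ρbar.V (ρbar.ρ g * (X.val * ρbar.ρ g⁻¹ * Y.val)) := by
        simp only [mul_assoc]
    _ = LinearMap.trace k ρbar.V ((X.val * ρbar.ρ g⁻¹ * Y.val) * ρbar.ρ g) :=
        LinearMap.trace_mul_comm _ _ _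
    _ = LinearMap.trace k ρbar.V (X.val * (ρbar.ρ g⁻¹ * Y.val * ρbar.ρ g)) := by
        simp only [mul_assoc]

end Dual

/-! ### the final statement -/

section Final

variable {k : Type} [Field k] [Finite k] (p : ℕ) [Fact p.Prime] [CharP k p]
  (ρbar : ResidualGaloisRep k)

/-- the action of `G_ℚ` on `M*` as a homomorphism to additive endomorphisms -/
def twgfAct : GQ →* AddMonoid.End ((s56Ad0Rep p ρbar).dualTwist (cycloChar p)) where
  toFun g := (((s56Ad0Rep p ρbar).dualTwist (cycloChar p)).ρ g).toAddMonoidHom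
  map_one' := by rw [map_one]; rfl
  map_mul' g h := by rw [map_mul]; rfl

theorem twgfAct_apply (g : GQ) (m : (s56Ad0Rep p ρbar).dualTwist (cycloChar p)) :
    twgfAct p ρbar g m = ((s56Ad0Rep p ρbar).dualTwist (cycloChar p)).ρ g m := rfl

/-- **TWG in the frozen language.** `Gn` contains the commutators of `G_ℚ` and is killed by the mod
`p` cyclotomic character; a cocycle `y : G_ℚ → M* = ad⁰ρ̄(1)` which is not a coboundary is not a
coboundary at some `σ ∈ Gn` such that `ρ̄(σ)` has two distinct eigenvalues in `k`. -/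
theorem twg_frozen (hp2 : p ≠ 2) (habs : ρbar.IsAbsolutelyIrreducible)
    (hdet : (GaloisRepAdic.ofResidualGaloisRep ρbar).DetIsCyclotomic p)
    (hsplit : ∀ σ : AlgebraicClosure ℚ ≃ₐ[ℚ] AlgebraicClosure ℚ,
      ∃ α β : k, LinearMap.charpoly (ρbar.ρ σ) = (X - C α) * (X - C β))
    (hTW : ∀ (K : Type) [Field K] [Algebra k K]
      (G : Subgroup (AlgebraicClosure ℚ ≃ₐ[ℚ] AlgebraicClosure ℚ)), G.index = 2 →
      ∀ V : Submodule K (ρbar.baseChange K).V,
        (∀ σ ∈ G, ∀ x ∈ V, (ρbar.baseChange K).ρ σ x ∈ V) → V = ⊥ ∨ V = ⊤)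
    (Gn : Subgroup GQ) (hab : ∀ g h : GQ, g * h * g⁻¹ * h⁻¹ ∈ Gn)
    (hGn : ∀ g ∈ Gn, cycloChar p g = 1)
    (y : GQ → ((s56Ad0Rep p ρbar).dualTwist (cycloChar p)))
    (hy : ∀ g h, y (g * h) = y g + ((s56Ad0Rep p ρbar).dualTwist (cycloChar p)).ρ g (y h))
    (hncob : ¬ ∃ m : ((s56Ad0Rep p ρbar).dualTwist (cycloChar p)),
      ∀ g, y g = ((s56Ad0Rep p ρbar).dualTwist (cycloChar p)).ρ g m - m) :
    ∃ σ ∈ Gn, (∃ α β : k, α ≠ β ∧ LinearMap.charpoly (ρbar.ρ σ) = (X - C α) * (X - C β)) ∧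
      ∀ m : ((s56Ad0Rep p ρbar).dualTwist (cycloChar p)),
        y σ ≠ ((s56Ad0Rep p ρbar).dualTwist (cycloChar p)).ρ σ m - m := by
  have h2 : (2 : k) ≠ 0 := by
    intro h
    have h2' : ((2 : ℕ) : k) = 0 := by exact_mod_cast h
    rw [CharP.cast_eq_zero_iff k p] at h2'
    exact hp2 ((Nat.prime_dvd_prime_iff_eq (Fact.out : p.Prime) Nat.prime_two).1 h2')
  obtain ⟨t, ht, ht1⟩ := twgf_exists_functional (k := k) p
  let Θ := LinearEquiv.ofBijective (twgfTheta p ρbar t ht) (twgfTheta_bijective p ρbar h2 t ht ht1)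
  let e : ((s56Ad0Rep p ρbar).dualTwist (cycloChar p)) ≃+
      ↥(LinearMap.ker (LinearMap.trace k ρbar.V)) := Θ.symm.toAddEquiv
  have he : ∀ (g : GQ) (n : (s56Ad0Rep p ρbar).dualTwist (cycloChar p)),
      ((e (twgfAct p ρbar g n) : ↥(LinearMap.ker (LinearMap.trace k ρbar.V))) :
        Module.End k ρbar.V) =
      twgAct ρbar.ρ (twgChi p (cycloChar p)) g
        ((e n : ↥(LinearMap.ker (LinearMap.trace k ρbar.V))) : Module.End k ρbar.V) := by
    intro g n
    set X₀ : S56Ad0 ρbar := Θ.symm n with hX₀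
    have hΘX : twgfTheta p ρbar t ht X₀ = n := Θ.apply_symm_apply n
    have htr : LinearMap.trace k ρbar.V
        (twgAct ρbar.ρ (twgChi p (cycloChar p)) g X₀.val) = 0 := by
      unfold twgAct
      rw [map_smul, LinearMap.trace_mul_comm, ← mul_assoc, s56_rho_inv_mul, one_mul,
        X₀.trace_val, smul_zero]
    have hequi := twgfTheta_equivariant p ρbar t ht g X₀ (S56Ad0.mk _ htr) (S56Ad0.val_mk _ htr)
    rw [hΘX] at hequi
    have h3 : Θ.symm (twgfAct p ρbar g n) = S56Ad0.mk _ htr := by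
      rw [twgfAct_apply, ← hequi]
      exact Θ.symm_apply_apply _
    show (Θ.symm (twgfAct p ρbar g n)).val = _
    rw [h3, S56Ad0.val_mk]
    rfl
  exact twg_main p hp2 ρbar.finrank_eq ρbar.ρ (cycloChar p) (twgf_cycloChar_surjective p)
    (twgf_det p ρbar hdet) hsplit (twgf_hirr ρbar habs hTW) Gn hab hGn
    (twgfAct p ρbar) e he y hy hncob

end Final

end Fermat.Agent.S56
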