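import Fermat.Agent.S56.TW.Rep

/-!
# S56 / TW : fixed points on `ℙ¹(k) = OnePoint k` versus eigenvectors
-/

set_option autoImplicit false
set_option linter.unusedSectionVars false

namespace Fermat.Agent.S56

open Matrix OnePoint

variable {k : Type*} [Field k] [DecidableEq k]

/-- the point of `ℙ¹(k)` defined by a vector -/
def twgPt (v : Fin 2 → k) : OnePoint k :=
  if v 1 = 0 then ∞ else ((v 0 / v 1 : k) : OnePoint k)

/-- a vector representing a point of `ℙ¹(k)` -/
def twgVec (x : OnePoint k) : Fin 2 → k :=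
  x.elim ![1, 0] (fun z => ![z, 1])

theorem twgVec_ne_zero (x : OnePoint k) : twgVec x ≠ 0 := by
  cases x with
  | infty =>
    intro h
    have := congrFun h 0
    simp [twgVec] at this
  | coe z =>
    intro h
    have := congrFun h 1
    simp [twgVec] at this

theorem twg_fix_of_eig (g : GL (Fin 2) k) {v : Fin 2 → k} (hv : v ≠ 0) {a : k}
    (h : g.1 *ᵥ v = a • v) : g • twgPt v = twgPt v := by
  have e0 := congrFun h 0
  have e1 := congrFun h 1
  rw [twg_mulVec_apply] at e0 e1
  simp only [Pi.smul_apply, smul_eq_mul] at e0 e1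
  have ha : a ≠ 0 := by
    rintro rfl
    rw [zero_smul] at h
    apply hv
    have : (g⁻¹).1 *ᵥ (g.1 *ᵥ v) = (g⁻¹).1 *ᵥ 0 := by rw [h]
    rw [Matrix.mulVec_mulVec, Units.inv_mul, Matrix.one_mulVec, Matrix.mulVec_zero] at this
    exact this
  unfold twgPt
  by_cases h1 : v 1 = 0
  · rw [if_pos h1, smul_infty_eq_self_iff]
    have h0 : v 0 ≠ 0 := fun h0 => hv (twg_vec_ext h0 h1)
    rw [h1, mul_zero, add_zero, mul_zero] at e1
    exact (mul_eq_zero.1 e1).resolve_right h0
  · rw [if_neg h1, smul_some_eq_ite]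
    have hden : g.1 1 0 * (v 0 / v 1) + g.1 1 1 = a := by
      field_simp
      linear_combination e1
    have hnum : g.1 0 0 * (v 0 / v 1) + g.1 0 1 = a * (v 0 / v 1) := by
      field_simp
      linear_combination e0
    rw [hden, if_neg ha, hnum, mul_div_assoc, mul_div_cancel₀ _ ha]

theorem twg_eig_of_fix (g : GL (Fin 2) k) (x : OnePoint k) (h : g • x = x) :
    ∃ a : k, g.1 *ᵥ twgVec x = a • twgVec x := by
  cases x with
  | infty =>
    have h10 : g.1 1 0 = 0 := smul_infty_eq_self_iff.1 h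
    refine ⟨g.1 0 0, twg_vec_ext ?_ ?_⟩
    · rw [twg_mulVec_apply]; simp [twgVec]
    · rw [twg_mulVec_apply]; simp [twgVec, h10]
  | coe z =>
    rw [smul_some_eq_ite] at h
    split_ifs at h with hd
    · exact absurd h (OnePoint.infty_ne_coe z)
    · rw [OnePoint.coe_eq_coe, div_eq_iff hd] at h
      refine ⟨g.1 1 0 * z + g.1 1 1, twg_vec_ext ?_ ?_⟩
      · rw [twg_mulVec_apply]
        simp only [twgVec, OnePoint.elim_some, Pi.smul_apply, smul_eq_mul, Matrix.cons_val_zero,
          Matrix.cons_val_one, mul_one]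
        linear_combination h
      · rw [twg_mulVec_apply]
        simp [twgVec]

theorem twg_scalar_of_fix_all (g : GL (Fin 2) k) (h : ∀ x : OnePoint k, g • x = x) :
    ∃ a : k, g.1 = a • (1 : Matrix (Fin 2) (Fin 2) k) := by
  have h10 : g.1 1 0 = 0 := smul_infty_eq_self_iff.1 (h ∞)
  have h0 := h ((0 : k) : OnePoint k)
  have h1 := h ((1 : k) : OnePoint k)
  rw [smul_some_eq_ite] at h0 h1
  simp only [mul_zero, zero_add, mul_one] at h0 h1
  split_ifs at h0 with hd0
  · exact absurd h0 (OnePoint.infty_ne_coe _)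
  split_ifs at h1 with hd1
  · exact absurd h1 (OnePoint.infty_ne_coe _)
  rw [OnePoint.coe_eq_coe, div_eq_iff hd0, zero_mul] at h0
  rw [OnePoint.coe_eq_coe, div_eq_iff hd1, one_mul, h0, h10, add_zero, zero_add] at h1
  refine ⟨g.1 0 0, ?_⟩
  ext i j
  fin_cases i <;> fin_cases j <;> simp [h10, h0, h1]

end Fermat.Agent.S56
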