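import Mathlib

/-!
# S56 / TW : the twisted adjoint action (definitions for the abstract Taylor-Wiles group theory)
-/

set_option autoImplicit false

namespace Fermat.Agent.S56

variable {k : Type*} [Field k] {V : Type*} [AddCommGroup V] [Module k V] {G : Type*} [Group G]

/-- the twisted adjoint action on `End_k V`: `g • X = c(g) • ρ(g) X ρ(g)⁻¹` -/
def twgAct (ρ : G →* Module.End k V) (c : G → k) (g : G) (X : Module.End k V) : Module.End k V :=
  c g • (ρ g * X * ρ g⁻¹)

/-- the mod-`p` character `χ : G → (ZMod p)ˣ` with values in `k` -/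
def twgChi (p : ℕ) [CharP k p] (χ : G →* (ZMod p)ˣ) (g : G) : k :=
  ZMod.castHom (dvd_refl p) k ((χ g : (ZMod p)ˣ) : ZMod p)

end Fermat.Agent.S56
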