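import Mathlib

/-!
# S56 / TW : a small toolkit for `2 × 2` matrices over a field
-/

set_option autoImplicit false
set_option linter.unusedSectionVars false

namespace Fermat.Agent.S56

open Matrix

variable {k : Type*} [Field k]

/-- the "cross product" of two vectors of `k²` (`= det [v w]`) -/
def twgCr (v w : Fin 2 → k) : k := v 0 * w 1 - v 1 * w 0

theorem twg_vec_ext {v w : Fin 2 → k} (h0 : v 0 = w 0) (h1 : v 1 = w 1) : v = w := by
  funext i; fin_cases i <;> assumption

theorem twg_mulVec_apply (A : Matrix (Fin 2) (Fin 2) k) (v : Fin 2 → k) (i : Fin 2) :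
    (A *ᵥ v) i = A i 0 * v 0 + A i 1 * v 1 := by
  simp [Matrix.mulVec, dotProduct, Fin.sum_univ_two]

/-- Cayley-Hamilton for `2 × 2` matrices -/
theorem twg_ch2 (A : Matrix (Fin 2) (Fin 2) k) :
    A * A = A.trace • A - A.det • (1 : Matrix (Fin 2) (Fin 2) k) := by
  ext i j
  fin_cases i <;> fin_cases j <;>
    simp [Matrix.mul_apply, Fin.sum_univ_two, Matrix.trace_fin_two, Matrix.det_fin_two] <;> ring

theorem twg_ch2_trace_zero (A : Matrix (Fin 2) (Fin 2) k) (h : A.trace = 0) :
    A * A = (-A.det) • (1 : Matrix (Fin 2) (Fin 2) k) := by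
  rw [twg_ch2, h, zero_smul, zero_sub, neg_smul]

/-- `(A - (tr A / 2))² = (disc A / 4)` -/
theorem twg_sq_half (h2 : (2 : k) ≠ 0) (A : Matrix (Fin 2) (Fin 2) k) :
    (A - (A.trace / 2) • (1 : Matrix (Fin 2) (Fin 2) k)) *
      (A - (A.trace / 2) • (1 : Matrix (Fin 2) (Fin 2) k)) =
      (A.discr / 4) • (1 : Matrix (Fin 2) (Fin 2) k) := by
  have h4 : (4 : k) ≠ 0 := by
    have : (4 : k) = 2 * 2 := by norm_num
    rw [this]; exact mul_ne_zero h2 h2
  ext i j
  fin_cases i <;> fin_cases j <;>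
    simp [Matrix.mul_apply, Fin.sum_univ_two, Matrix.trace_fin_two, Matrix.det_fin_two,
      Matrix.discr_fin_two] <;> field_simp <;> ring

/-- a square-zero `2 × 2` matrix has trace and determinant zero -/
theorem twg_nilp (N : Matrix (Fin 2) (Fin 2) k) (hN : N * N = 0) :
    N.trace = 0 ∧ N.det = 0 := by
  have hdet : N.det = 0 := by
    have : (N * N).det = 0 := by rw [hN, Matrix.det_zero]
    rw [Matrix.det_mul] at this
    exact mul_self_eq_zero.1 this
  refine ⟨?_, hdet⟩
  have h := twg_ch2 N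
  rw [hN, hdet, zero_smul, sub_zero] at h
  by_contra htr
  have hN0 : N = 0 := by
    have := congrArg (fun M => (N.trace)⁻¹ • M) h
    simpa [smul_smul, inv_mul_cancel₀ htr] using this.symm
  exact htr (by rw [hN0, Matrix.trace_zero])

/-- `disc A = 0` iff `A - a` is square-zero for some scalar `a` -/
theorem twg_discr_eq_zero_iff (h2 : (2 : k) ≠ 0) (A : Matrix (Fin 2) (Fin 2) k) :
    A.discr = 0 ↔ ∃ a : k, (A - a • (1 : Matrix (Fin 2) (Fin 2) k)) *
      (A - a • (1 : Matrix (Fin 2) (Fin 2) k)) = 0 := by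
  constructor
  · intro h
    exact ⟨A.trace / 2, by rw [twg_sq_half h2, h, zero_div, zero_smul]⟩
  · rintro ⟨a, ha⟩
    obtain ⟨htr, hdet⟩ := twg_nilp _ ha
    rw [Matrix.discr_fin_two]
    rw [Matrix.trace_fin_two] at htr ⊢
    rw [Matrix.det_fin_two] at hdet ⊢
    simp only [Matrix.sub_apply, Matrix.smul_apply, Matrix.one_apply_eq, smul_eq_mul, mul_one,
      Matrix.one_apply_ne (show (0 : Fin 2) ≠ 1 by decide),
      Matrix.one_apply_ne (show (1 : Fin 2) ≠ 0 by decide), mul_zero, sub_zero] at htr hdet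
    have h1 : A 0 0 + A 1 1 = 2 * a := by linear_combination htr
    have h3 : A 0 0 * A 1 1 - A 0 1 * A 1 0 = a * (A 0 0 + A 1 1) - a * a := by
      linear_combination hdet
    rw [h1] at h3 ⊢
    rw [h3]; ring

theorem twgCr_self (v : Fin 2 → k) : twgCr v v = 0 := by
  unfold twgCr; ring

theorem twgCr_smul_right (v w : Fin 2 → k) (a : k) : twgCr v (a • w) = a * twgCr v w := by
  unfold twgCr; simp only [Pi.smul_apply, smul_eq_mul]; ring

/-- `v ≠ 0` and `det [v w] = 0` imply `w ∈ k v` -/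
theorem twg_exists_smul_of_cr_eq_zero {v w : Fin 2 → k} (hv : v ≠ 0) (h : twgCr v w = 0) :
    ∃ a : k, w = a • v := by
  unfold twgCr at h
  by_cases h0 : v 0 = 0
  · have h1 : v 1 ≠ 0 := fun h1 => hv (twg_vec_ext h0 h1)
    refine ⟨w 1 / v 1, twg_vec_ext ?_ ?_⟩
    · rw [h0, zero_mul, zero_sub, neg_eq_zero, mul_eq_zero] at h
      rcases h with h | h
      · exact absurd h h1
      · simp [h, h0]
    · simp [div_mul_cancel₀ _ h1]
  · refine ⟨w 0 / v 0, twg_vec_ext ?_ ?_⟩
    · simp [div_mul_cancel₀ _ h0]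
    · simp only [Pi.smul_apply, smul_eq_mul]
      field_simp
      linear_combination h

/-- a matrix with the same eigenvalue on two independent vectors is scalar -/
theorem twg_scalar_of_two_eig {A : Matrix (Fin 2) (Fin 2) k} {v w : Fin 2 → k} {a : k}
    (hvw : twgCr v w ≠ 0) (hv : A *ᵥ v = a • v) (hw : A *ᵥ w = a • w) :
    A = a • (1 : Matrix (Fin 2) (Fin 2) k) := by
  have e0 := congrFun hv 0
  have e1 := congrFun hv 1
  have e2 := congrFun hw 0
  have e3 := congrFun hw 1
  rw [twg_mulVec_apply] at e0 e1 e2 e3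
  simp only [Pi.smul_apply, smul_eq_mul] at e0 e1 e2 e3
  unfold twgCr at hvw
  ext i j
  fin_cases i <;> fin_cases j <;> simp
  · -- A 0 0 = a
    have : (A 0 0 - a) * (v 0 * w 1 - v 1 * w 0) = 0 := by linear_combination w 1 * e0 - v 1 * e2
    rcases mul_eq_zero.1 this with h | h
    · linear_combination h
    · exact absurd h hvw
  · have : (A 0 1) * (v 0 * w 1 - v 1 * w 0) = 0 := by linear_combination v 0 * e2 - w 0 * e0
    rcases mul_eq_zero.1 this with h | h
    · exact h
    · exact absurd h hvw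
  · have : (A 1 0) * (v 0 * w 1 - v 1 * w 0) = 0 := by linear_combination w 1 * e1 - v 1 * e3
    rcases mul_eq_zero.1 this with h | h
    · exact h
    · exact absurd h hvw
  · have : (A 1 1 - a) * (v 0 * w 1 - v 1 * w 0) = 0 := by linear_combination v 0 * e3 - w 0 * e1
    rcases mul_eq_zero.1 this with h | h
    · linear_combination h
    · exact absurd h hvw

/-- a matrix killing two independent vectors is zero -/
theorem twg_eq_zero_of_two_ker {A : Matrix (Fin 2) (Fin 2) k} {v w : Fin 2 → k}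
    (hvw : twgCr v w ≠ 0) (hv : A *ᵥ v = 0) (hw : A *ᵥ w = 0) : A = 0 := by
  have := twg_scalar_of_two_eig (a := 0) hvw (by rw [hv, zero_smul]) (by rw [hw, zero_smul])
  rw [this, zero_smul]

/-- a non-zero matrix moves some vector -/
theorem twg_exists_mulVec_ne_zero {A : Matrix (Fin 2) (Fin 2) k} (hA : A ≠ 0) :
    ∃ w : Fin 2 → k, A *ᵥ w ≠ 0 := by
  by_contra h
  simp only [not_exists, not_not] at h
  apply hA
  refine twg_eq_zero_of_two_ker (v := ![1, 0]) (w := ![0, 1]) ?_ (h _) (h _)
  simp [twgCr]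

/-- the eigenspaces of a non-scalar matrix are lines -/
theorem twg_eig_unique {A : Matrix (Fin 2) (Fin 2) k} {v w : Fin 2 → k} {a : k}
    (hA : ∀ c : k, A ≠ c • (1 : Matrix (Fin 2) (Fin 2) k)) (hv0 : v ≠ 0)
    (hv : A *ᵥ v = a • v) (hw : A *ᵥ w = a • w) : ∃ c : k, w = c • v := by
  by_cases h : twgCr v w = 0
  · exact twg_exists_smul_of_cr_eq_zero hv0 h
  · exact absurd (twg_scalar_of_two_eig h hv hw) (hA a)

/-- the kernel of a non-zero matrix is at most a line -/
theorem twg_ker_unique {A : Matrix (Fin 2) (Fin 2) k} {v w : Fin 2 → k}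
    (hA : A ≠ 0) (hv0 : v ≠ 0) (hv : A *ᵥ v = 0) (hw : A *ᵥ w = 0) : ∃ c : k, w = c • v := by
  by_cases h : twgCr v w = 0
  · exact twg_exists_smul_of_cr_eq_zero hv0 h
  · exact absurd (twg_eq_zero_of_two_ker h hv hw) hA

/-- `X Y + Y X = tr(X Y)` for trace-zero matrices -/
theorem twg_anticomm {X Y : Matrix (Fin 2) (Fin 2) k} (hX : X.trace = 0) (hY : Y.trace = 0) :
    X * Y + Y * X = (X * Y).trace • (1 : Matrix (Fin 2) (Fin 2) k) := by
  rw [Matrix.trace_fin_two] at hX hY
  have hX' : X 1 1 = - X 0 0 := by linear_combination hX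
  have hY' : Y 1 1 = - Y 0 0 := by linear_combination hY
  ext i j
  fin_cases i <;> fin_cases j <;>
    simp [Matrix.mul_apply, Fin.sum_univ_two, Matrix.trace_fin_two, hX', hY'] <;> ring

/-- `[[X, X'], Y] = 2 tr(X' Y) X - 2 tr(X Y) X'` for trace-zero matrices -/
theorem twg_bracket_bracket {X X' Y : Matrix (Fin 2) (Fin 2) k} (hX : X.trace = 0)
    (hX' : X'.trace = 0) (hY : Y.trace = 0) :
    (X * X' - X' * X) * Y - Y * (X * X' - X' * X) =
      (2 * (X' * Y).trace) • X - (2 * (X * Y).trace) • X' := by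
  rw [Matrix.trace_fin_two] at hX hX' hY
  have h1 : X 1 1 = - X 0 0 := by linear_combination hX
  have h2 : X' 1 1 = - X' 0 0 := by linear_combination hX'
  have h3 : Y 1 1 = - Y 0 0 := by linear_combination hY
  ext i j
  fin_cases i <;> fin_cases j <;>
    simp [Matrix.mul_apply, Fin.sum_univ_two, Matrix.trace_fin_two, h1, h2, h3] <;> ring

/-- the centraliser of a non-zero trace-zero matrix in the trace-zero matrices is its line -/
theorem twg_cen (h2 : (2 : k) ≠ 0) {X Y : Matrix (Fin 2) (Fin 2) k} (hX : X.trace = 0)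
    (hY : Y.trace = 0) (hX0 : X ≠ 0) (hc : X * Y = Y * X) : ∃ a : k, Y = a • X := by
  rw [Matrix.trace_fin_two] at hX hY
  have h1 : X 1 1 = - X 0 0 := by linear_combination hX
  have h3 : Y 1 1 = - Y 0 0 := by linear_combination hY
  have e00 := congrFun (congrFun hc 0) 0
  have e01 := congrFun (congrFun hc 0) 1
  have e10 := congrFun (congrFun hc 1) 0
  simp only [Matrix.mul_apply, Fin.sum_univ_two, h1, h3] at e00 e01 e10
  -- the three 2x2 minors of the coordinate vectors vanish
  have m1 : X 0 1 * Y 1 0 = X 1 0 * Y 0 1 := by linear_combination e00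
  have m2 : X 0 0 * Y 0 1 = X 0 1 * Y 0 0 := by
    have : (2 : k) * (X 0 0 * Y 0 1 - X 0 1 * Y 0 0) = 0 := by linear_combination e01
    rcases mul_eq_zero.1 this with h | h
    · exact absurd h h2
    · linear_combination h
  have m3 : X 1 0 * Y 0 0 = X 0 0 * Y 1 0 := by
    have : (2 : k) * (X 1 0 * Y 0 0 - X 0 0 * Y 1 0) = 0 := by linear_combination e10
    rcases mul_eq_zero.1 this with h | h
    · exact absurd h h2
    · linear_combination h
  have key : ∀ a : k, Y 0 0 = a * X 0 0 → Y 0 1 = a * X 0 1 → Y 1 0 = a * X 1 0 → Y = a • X := by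
    intro a e1 e2 e3
    ext i j
    fin_cases i <;> fin_cases j <;> simp [h1, h3, e1, e2, e3]
  by_cases ha : X 0 0 = 0
  · by_cases hb : X 0 1 = 0
    · have hc' : X 1 0 ≠ 0 := by
        intro hc'
        apply hX0
        ext i j
        fin_cases i <;> fin_cases j <;> simp [ha, hb, hc', h1]
      refine ⟨Y 1 0 / X 1 0, key _ ?_ ?_ ?_⟩
      · rw [ha, mul_zero]
        rw [ha, zero_mul] at m3
        exact (mul_eq_zero.1 m3).resolve_left hc'
      · rw [hb, mul_zero]
        rw [hb, zero_mul] at m1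
        exact (mul_eq_zero.1 m1.symm).resolve_left hc'
      · field_simp
    · refine ⟨Y 0 1 / X 0 1, key _ ?_ ?_ ?_⟩
      · rw [ha, mul_zero]
        rw [ha, zero_mul] at m2
        exact (mul_eq_zero.1 m2.symm).resolve_left hb
      · field_simp
      · field_simp
        linear_combination m1
  · refine ⟨Y 0 0 / X 0 0, key _ ?_ ?_ ?_⟩
    · field_simp
    · field_simp
      linear_combination m2
    · field_simp
      linear_combination -m3

end Fermat.Agent.S56
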