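import Fermat.Agent.S56.TW.Rep

/-!
# S56 / TW : Step B — a regular element in `Gn`

`ρ : G →* GL₂(k)` irreducible on subgroups of index `≤ 2`, all `ρ(g)` split; `Gn` contains the
commutators and `det ρ = 1` on `Gn`.  Then some `σ ∈ Gn` has `disc ρ(σ) ≠ 0`.
-/

set_option autoImplicit false
set_option linter.unusedSectionVars false

namespace Fermat.Agent.S56

open Matrix

variable {k : Type*} [Field k] {G : Type*} [Group G] {ρ : G →* GL (Fin 2) k}

/-- `A⁻¹ = tr A - A` when `det A = 1` -/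
theorem twg_inv_of_det_one (g : GL (Fin 2) k) (hg : g.1.det = 1) :
    (g⁻¹).1 = g.1.trace • (1 : Matrix (Fin 2) (Fin 2) k) - g.1 := by
  have h := twg_ch2 g.1
  rw [hg, one_smul] at h
  have h1 : g.1 * (g.1.trace • (1 : Matrix (Fin 2) (Fin 2) k) - g.1) = 1 := by
    rw [Matrix.mul_sub, h, Matrix.mul_smul, Matrix.mul_one]; abel
  calc (g⁻¹).1 = (g⁻¹).1 * (g.1 * (g.1.trace • (1 : Matrix (Fin 2) (Fin 2) k) - g.1)) := by
        rw [h1, Matrix.mul_one]
    _ = g.1.trace • (1 : Matrix (Fin 2) (Fin 2) k) - g.1 := by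
        rw [← Matrix.mul_assoc, Units.inv_mul, Matrix.one_mul]

theorem twg_normal_of_comm (Gn : Subgroup G) (hab : ∀ g h : G, g * h * g⁻¹ * h⁻¹ ∈ Gn)
    (h : G) {g : G} (hg : g ∈ Gn) : h * g * h⁻¹ ∈ Gn := by
  have := Gn.mul_mem (hab h g) hg
  simpa [mul_assoc] using this

/-- the trace-zero part `A - tr A / 2` -/
def twgTz (A : Matrix (Fin 2) (Fin 2) k) : Matrix (Fin 2) (Fin 2) k :=
  A - (A.trace / 2) • (1 : Matrix (Fin 2) (Fin 2) k)

theorem twgTz_trace (h2 : (2 : k) ≠ 0) (A : Matrix (Fin 2) (Fin 2) k) : (twgTz A).trace = 0 := by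
  unfold twgTz
  rw [Matrix.trace_sub, Matrix.trace_smul, Matrix.trace_one, Fintype.card_fin, smul_eq_mul]
  push_cast
  field_simp
  ring

theorem twgTz_mulVec (A : Matrix (Fin 2) (Fin 2) k) (v : Fin 2 → k) :
    twgTz A *ᵥ v = A *ᵥ v - (A.trace / 2) • v := by
  unfold twgTz
  rw [Matrix.sub_mulVec, Matrix.smul_mulVec, Matrix.one_mulVec]

/-- key trace identity: if all elements of `Gn` have `det = 1` and `disc = 0`, the trace-zero parts
of any two elements of `ρ(Gn)` anticommute -/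
theorem twg_tz_anticomm (h2 : (2 : k) ≠ 0) (Gn : Subgroup G)
    (hGn : ∀ g ∈ Gn, (ρ g).1.det = 1) (hreg : ∀ g ∈ Gn, (ρ g).1.discr = 0)
    {g₀ g₁ : G} (h₀ : g₀ ∈ Gn) (h₁ : g₁ ∈ Gn) :
    twgTz (ρ g₀).1 * twgTz (ρ g₁).1 + twgTz (ρ g₁).1 * twgTz (ρ g₀).1 = 0 := by
  set A := (ρ g₀).1 with hA
  set B := (ρ g₁).1 with hB
  have hdA := hGn g₀ h₀
  have hdB := hGn g₁ h₁
  have e1 : A.trace ^ 2 = 4 := by
    have := hreg g₀ h₀
    rw [Matrix.discr_fin_two, ← hA, hdA] at this
    linear_combination this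
  have e2 : B.trace ^ 2 = 4 := by
    have := hreg g₁ h₁
    rw [Matrix.discr_fin_two, ← hB, hdB] at this
    linear_combination this
  have e3 : (A * B).trace ^ 2 = 4 := by
    have h := hreg (g₀ * g₁) (Gn.mul_mem h₀ h₁)
    have hd := hGn (g₀ * g₁) (Gn.mul_mem h₀ h₁)
    rw [twg_rho_mul] at h hd
    rw [Matrix.discr_fin_two, hd] at h
    linear_combination h
  have e4 : (A.trace * B.trace - (A * B).trace) ^ 2 = 4 := by
    have h := hreg (g₀⁻¹ * g₁) (Gn.mul_mem (Gn.inv_mem h₀) h₁)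
    have hd := hGn (g₀⁻¹ * g₁) (Gn.mul_mem (Gn.inv_mem h₀) h₁)
    rw [twg_rho_mul] at h hd
    rw [Matrix.discr_fin_two, hd] at h
    have hinv : (ρ g₀⁻¹).1 = A.trace • (1 : Matrix (Fin 2) (Fin 2) k) - A := by
      rw [map_inv]
      exact twg_inv_of_det_one (ρ g₀) hdA
    rw [hinv, Matrix.sub_mul, Matrix.smul_mul, Matrix.one_mul, Matrix.trace_sub,
      Matrix.trace_smul, smul_eq_mul] at h
    linear_combination h
  -- 2 tr(AB) = tr A tr B
  have e5 : 2 * (A * B).trace = A.trace * B.trace := by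
    have h8 : A.trace * B.trace * (A * B).trace = 8 := by
      have : (2 : k) * (A.trace * B.trace * (A * B).trace) = 2 * 8 := by
        linear_combination (-1 : k) * e4 + e3 + B.trace ^ 2 * e1 + 4 * e2
      exact mul_left_cancel₀ h2 this
    have : (2 * (A * B).trace - A.trace * B.trace) ^ 2 = 0 := by
      linear_combination 4 * e3 - 4 * h8 + B.trace ^ 2 * e1 + 4 * e2
    have := pow_eq_zero_iff (two_ne_zero) |>.1 this
    linear_combination this
  have htr : (twgTz A * twgTz B).trace = 0 := by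
    unfold twgTz
    simp only [Matrix.mul_sub, Matrix.sub_mul, Matrix.smul_mul, Matrix.mul_smul, Matrix.one_mul,
      Matrix.mul_one, Matrix.trace_sub, Matrix.trace_smul, smul_eq_mul, Matrix.trace_one,
      Fintype.card_fin]
    push_cast
    field_simp
    linear_combination e5
  rw [twg_anticomm (twgTz_trace h2 A) (twgTz_trace h2 B), htr, zero_smul]

/-- **Step B.** -/
theorem twg_exists_regular (h2 : (2 : k) ≠ 0) (hsplit : TwgSplit ρ) (hirr : TwgIrr ρ)
    (Gn : Subgroup G) (hab : ∀ g h : G, g * h * g⁻¹ * h⁻¹ ∈ Gn)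
    (hGn : ∀ g ∈ Gn, (ρ g).1.det = 1) : ∃ σ ∈ Gn, (ρ σ).1.discr ≠ 0 := by
  by_contra hcon
  simp only [not_exists, not_and, not_not] at hcon
  have hreg : ∀ g ∈ Gn, (ρ g).1.discr = 0 := hcon
  -- Step 2 : every element of `Gn` is scalar
  have hscal : ∀ g ∈ Gn, ∃ a : k, (ρ g).1 = a • (1 : Matrix (Fin 2) (Fin 2) k) := by
    intro g₀ h₀
    by_contra hns
    simp only [not_exists] at hns
    set A := (ρ g₀).1 with hA
    set N₀ := twgTz A with hN₀
    have hN₀ne : N₀ ≠ 0 := by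
      intro h
      apply hns (A.trace / 2)
      rw [hN₀] at h
      unfold twgTz at h
      exact sub_eq_zero.1 h
    have hN₀sq : N₀ * N₀ = 0 := by
      rw [hN₀]
      unfold twgTz
      rw [twg_sq_half h2, hreg g₀ h₀, zero_div, zero_smul]
    obtain ⟨w, hw⟩ := twg_exists_mulVec_ne_zero hN₀ne
    set v₀ := N₀ *ᵥ w with hv₀
    have hNv : N₀ *ᵥ v₀ = 0 := by
      rw [hv₀, Matrix.mulVec_mulVec, hN₀sq, Matrix.zero_mulVec]
    -- every element of Gn has v₀ as an eigenvector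
    have hGnv : ∀ g₁ ∈ Gn, ∃ b : k, (ρ g₁).1 *ᵥ v₀ = b • v₀ := by
      intro g₁ h₁
      have hac := twg_tz_anticomm h2 Gn hGn hreg h₀ h₁
      rw [← hA, ← hN₀] at hac
      have h3 : N₀ *ᵥ (twgTz (ρ g₁).1 *ᵥ v₀) = 0 := by
        have := congrArg (fun M => M *ᵥ v₀) hac
        simp only [Matrix.add_mulVec, ← Matrix.mulVec_mulVec, hNv, Matrix.mulVec_zero, add_zero,
          Matrix.zero_mulVec] at this
        exact this
      obtain ⟨c, hc⟩ := twg_ker_unique hN₀ne hw hNv h3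
      rw [twgTz_mulVec] at hc
      refine ⟨c + (ρ g₁).1.trace / 2, ?_⟩
      rw [add_smul, ← hc]; abel
    -- hence every element of G
    have hGv : ∀ h : G, ∃ b : k, (ρ h⁻¹).1 *ᵥ v₀ = b • v₀ := by
      intro h
      obtain ⟨b, hb⟩ := hGnv _ (twg_normal_of_comm Gn hab h h₀)
      rw [twg_rho_mul, twg_rho_mul, ← hA] at hb
      set u := (ρ h⁻¹).1 *ᵥ v₀ with hu
      have hAu : A *ᵥ u = b • u := by
        have := congrArg (fun x => (ρ h⁻¹).1 *ᵥ x) hb
        simp only [Matrix.mulVec_mulVec, ← Matrix.mul_assoc, twg_rho_inv_mul, Matrix.one_mul,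
          Matrix.mulVec_smul] at this
        rw [hu, Matrix.mulVec_mulVec]
        exact this
      have hNu : N₀ *ᵥ u = (b - A.trace / 2) • u := by
        rw [hN₀, twgTz_mulVec, hAu, sub_smul]
      have hNu0 : N₀ *ᵥ u = 0 := by
        have h5 : (N₀ * N₀) *ᵥ u = ((b - A.trace / 2) * (b - A.trace / 2)) • u := by
          rw [← Matrix.mulVec_mulVec, hNu, Matrix.mulVec_smul, hNu, smul_smul]
        rw [hN₀sq, Matrix.zero_mulVec] at h5
        rcases smul_eq_zero.1 h5.symm with h6 | h6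
        · have : b - A.trace / 2 = 0 := mul_self_eq_zero.1 h6
          rw [hNu, this, zero_smul]
        · rw [h6, Matrix.mulVec_zero]
      obtain ⟨c, hc⟩ := twg_ker_unique hN₀ne hw hNv hNu0
      exact ⟨c, hc⟩
    refine twg_irr_top hirr v₀ hw (fun g => ?_)
    have := hGv g⁻¹
    rwa [inv_inv] at this
  -- Step 3 : some element of G is not scalar
  have hv0 : (![1, 0] : Fin 2 → k) ≠ 0 := by
    intro h
    have := congrFun h 0
    simp at this
  have hex : ∃ g₀ : G, ∀ c : k, (ρ g₀).1 ≠ c • (1 : Matrix (Fin 2) (Fin 2) k) := by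
    by_contra hall
    simp only [not_exists, not_forall, not_not] at hall
    refine twg_irr_top hirr ![1, 0] hv0 (fun g => ?_)
    obtain ⟨c, hc⟩ := hall g
    exact ⟨c, by rw [hc, Matrix.smul_mulVec, Matrix.one_mulVec]⟩
  obtain ⟨g₀, hg₀⟩ := hex
  obtain ⟨v, hv, a, hva⟩ := hsplit g₀
  refine twg_no_pm_eig hirr (ρ g₀).1 hg₀ v hv a hva (fun h => ?_)
  obtain ⟨μ, hμ⟩ := hscal _ (hab h g₀)
  rw [twg_rho_mul, twg_rho_mul, twg_rho_mul] at hμ
  -- ρh Y = μ Y ρh
  have h1 : (ρ h).1 * (ρ g₀).1 = μ • ((ρ g₀).1 * (ρ h).1) := by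
    have := congrArg (fun M => M * ((ρ g₀).1 * (ρ h).1)) hμ
    simp only [Matrix.smul_mul, Matrix.one_mul] at this
    rw [← this]
    simp only [Matrix.mul_assoc]
    rw [← Matrix.mul_assoc (ρ g₀⁻¹).1, twg_rho_inv_mul, Matrix.one_mul, twg_rho_inv_mul,
      Matrix.mul_one]
  have h3 : μ * μ = 1 := by
    have := congrArg Matrix.det h1
    rw [Matrix.det_smul, Matrix.det_mul, Matrix.det_mul, Fintype.card_fin] at this
    have hd1 := twg_det_ne_zero (ρ h)
    have hd2 := twg_det_ne_zero (ρ g₀)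
    have h4 : ((ρ h).1.det * (ρ g₀).1.det) * (μ * μ - 1) = 0 := by linear_combination -this
    have := (mul_eq_zero.1 h4).resolve_left (mul_ne_zero hd1 hd2)
    linear_combination this
  have h4 : (μ - 1) * (μ + 1) = 0 := by linear_combination h3
  rcases mul_eq_zero.1 h4 with h5 | h5
  · left
    have : μ = 1 := by linear_combination h5
    rw [h1, this, one_smul]
  · right
    have : μ = -1 := by linear_combination h5
    rw [h1, this, neg_smul, one_smul]

end Fermat.Agent.S56
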