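import Fermat.Agent.S56.TW.Mat2
import Fermat.Agent.S56.TW.CaseB.MatDefs

/-!
# S56 / TW : two-dimensional representations in matrix form

`ρ : G →* GL₂(k)`; the twisted adjoint action `twgMAct`; irreducibility of `ad⁰` in the form
"a non-zero trace-zero matrix orthogonal (for the trace form) to a non-zero stable set does not exist".
-/

set_option autoImplicit false
set_option linter.unusedSectionVars false

namespace Fermat.Agent.S56

open Matrix

variable {k : Type*} [Field k]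

/-! ### the twisted adjoint action -/

theorem twgx_mact_eq (g : GL (Fin 2) k) (X : Matrix (Fin 2) (Fin 2) k) :
    twgMAct g X = (g.1.det) • (g.1 * X * (g⁻¹).1) := by
  unfold twgMAct
  rw [Matrix.GeneralLinearGroup.val_det_apply]

theorem twg_det_ne_zero (g : GL (Fin 2) k) : g.1.det ≠ 0 := by
  have h := congrArg Matrix.det (Units.mul_inv g)
  rw [Matrix.det_mul, Matrix.det_one] at h
  exact left_ne_zero_of_mul_eq_one h

theorem twgx_mact_add (g : GL (Fin 2) k) (X Y : Matrix (Fin 2) (Fin 2) k) :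
    twgMAct g (X + Y) = twgMAct g X + twgMAct g Y := by
  simp only [twgx_mact_eq, Matrix.mul_add, Matrix.add_mul, smul_add]

theorem twgx_mact_zero (g : GL (Fin 2) k) : twgMAct g (0 : Matrix (Fin 2) (Fin 2) k) = 0 := by
  simp only [twgx_mact_eq, Matrix.mul_zero, Matrix.zero_mul, smul_zero]

theorem twgx_mact_sub (g : GL (Fin 2) k) (X Y : Matrix (Fin 2) (Fin 2) k) :
    twgMAct g (X - Y) = twgMAct g X - twgMAct g Y := by
  simp only [twgx_mact_eq, Matrix.mul_sub, Matrix.sub_mul, smul_sub]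

theorem twgx_mact_smul (g : GL (Fin 2) k) (a : k) (X : Matrix (Fin 2) (Fin 2) k) :
    twgMAct g (a • X) = a • twgMAct g X := by
  simp only [twgx_mact_eq, Matrix.mul_smul, Matrix.smul_mul, smul_smul, mul_comm]

theorem twgx_mact_one (X : Matrix (Fin 2) (Fin 2) k) : twgMAct (1 : GL (Fin 2) k) X = X := by
  simp [twgx_mact_eq]

theorem twgx_mact_mul (g h : GL (Fin 2) k) (X : Matrix (Fin 2) (Fin 2) k) :
    twgMAct (g * h) X = twgMAct g (twgMAct h X) := by
  simp only [twgx_mact_eq, _root_.mul_inv_rev, Units.val_mul, Matrix.det_mul, Matrix.mul_smul,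
    Matrix.smul_mul, smul_smul, Matrix.mul_assoc]

theorem twgx_mact_trace (g : GL (Fin 2) k) (X : Matrix (Fin 2) (Fin 2) k) :
    (twgMAct g X).trace = g.1.det * X.trace := by
  rw [twgx_mact_eq, Matrix.trace_smul, smul_eq_mul, Matrix.trace_mul_cycle, Units.inv_mul,
    Matrix.one_mul]

/-- `(g • X) g = det g • (g X)` -/
theorem twgx_mact_mul_right (g : GL (Fin 2) k) (X : Matrix (Fin 2) (Fin 2) k) :
    twgMAct g X * g.1 = g.1.det • (g.1 * X) := by
  rw [twgx_mact_eq, Matrix.smul_mul, Matrix.mul_assoc, Units.inv_mul, Matrix.mul_one]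

theorem twgx_mact_inv_cancel (g : GL (Fin 2) k) (X : Matrix (Fin 2) (Fin 2) k) :
    twgMAct g⁻¹ (twgMAct g X) = X := by
  rw [← twgx_mact_mul, inv_mul_cancel, twgx_mact_one]

theorem twgx_mact_eq_zero_iff (g : GL (Fin 2) k) (X : Matrix (Fin 2) (Fin 2) k) :
    twgMAct g X = 0 ↔ X = 0 := by
  constructor
  · intro h
    have := twgx_mact_inv_cancel g X
    rw [h, twgx_mact_zero] at this
    exact this.symm
  · rintro rfl
    exact twgx_mact_zero g

/-- a scalar matrix `a` acts by `a²` -/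
theorem twgx_mact_scalar (g : GL (Fin 2) k) (a : k)
    (hg : g.1 = a • (1 : Matrix (Fin 2) (Fin 2) k)) (X : Matrix (Fin 2) (Fin 2) k) :
    twgMAct g X = (a * a) • X := by
  have hdet : g.1.det = a * a := by
    rw [hg, Matrix.det_smul, Matrix.det_one, Fintype.card_fin]; ring
  have h1 : g.1 * X * (g⁻¹).1 = X := by
    have : g.1 * X = X * g.1 := by
      rw [hg, Matrix.smul_mul, Matrix.mul_smul, Matrix.one_mul, Matrix.mul_one]
    rw [this, Matrix.mul_assoc, Units.mul_inv, Matrix.mul_one]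
  rw [twgx_mact_eq, hdet, h1]

theorem twg_scalar_det (g : GL (Fin 2) k) (a : k)
    (hg : g.1 = a • (1 : Matrix (Fin 2) (Fin 2) k)) : g.1.det = a * a := by
  rw [hg, Matrix.det_smul, Matrix.det_one, Fintype.card_fin]; ring

/-! ### representations -/

variable {G : Type*} [Group G] (ρ : G →* GL (Fin 2) k)

theorem twg_rho_mul (g h : G) : (ρ (g * h)).1 = (ρ g).1 * (ρ h).1 := by
  rw [map_mul, Units.val_mul]

theorem twg_rho_mul_inv (g : G) : (ρ g).1 * (ρ g⁻¹).1 = 1 := by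
  rw [← twg_rho_mul, mul_inv_cancel, map_one]; rfl

theorem twg_rho_inv_mul (g : G) : (ρ g⁻¹).1 * (ρ g).1 = 1 := by
  rw [← twg_rho_mul, inv_mul_cancel, map_one]; rfl

theorem twg_rho_mulVec_ne_zero (g : G) {v : Fin 2 → k} (hv : v ≠ 0) : (ρ g).1 *ᵥ v ≠ 0 := by
  intro h
  apply hv
  have : (ρ g⁻¹).1 *ᵥ ((ρ g).1 *ᵥ v) = (ρ g⁻¹).1 *ᵥ 0 := by rw [h]
  rw [Matrix.mulVec_mulVec, twg_rho_inv_mul, Matrix.one_mulVec, Matrix.mulVec_zero] at this
  exact this

theorem twg_rho_ne_zero (g : G) : (ρ g).1 ≠ 0 := by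
  intro h
  have := twg_rho_mul_inv ρ g
  rw [h, Matrix.zero_mul] at this
  exact zero_ne_one this

/-- the centraliser of `Y` in `G`, when every element commutes or anticommutes with `Y`,
has index `1` or `2` -/
theorem twg_index_centralizer (Y : Matrix (Fin 2) (Fin 2) k)
    (hpm : ∀ g, (ρ g).1 * Y = Y * (ρ g).1 ∨ (ρ g).1 * Y = -(Y * (ρ g).1)) :
    ∃ H : Subgroup G, (H.index = 1 ∨ H.index = 2) ∧
      ∀ g, g ∈ H ↔ (ρ g).1 * Y = Y * (ρ g).1 := by
  let H : Subgroup G :=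
    { carrier := {g | (ρ g).1 * Y = Y * (ρ g).1}
      one_mem' := by
        show (ρ 1).1 * Y = Y * (ρ 1).1
        rw [map_one]; simp
      mul_mem' := by
        intro a b ha hb
        show (ρ (a * b)).1 * Y = Y * (ρ (a * b)).1
        have ha' : (ρ a).1 * Y = Y * (ρ a).1 := ha
        have hb' : (ρ b).1 * Y = Y * (ρ b).1 := hb
        rw [twg_rho_mul, Matrix.mul_assoc, hb', ← Matrix.mul_assoc, ha', Matrix.mul_assoc]
      inv_mem' := by
        intro a ha
        show (ρ a⁻¹).1 * Y = Y * (ρ a⁻¹).1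
        have ha' : (ρ a).1 * Y = Y * (ρ a).1 := ha
        calc (ρ a⁻¹).1 * Y = (ρ a⁻¹).1 * Y * ((ρ a).1 * (ρ a⁻¹).1) := by
              rw [twg_rho_mul_inv, Matrix.mul_one]
          _ = (ρ a⁻¹).1 * (Y * (ρ a).1) * (ρ a⁻¹).1 := by simp only [Matrix.mul_assoc]
          _ = (ρ a⁻¹).1 * ((ρ a).1 * Y) * (ρ a⁻¹).1 := by rw [ha']
          _ = ((ρ a⁻¹).1 * (ρ a).1) * Y * (ρ a⁻¹).1 := by simp only [Matrix.mul_assoc]
          _ = Y * (ρ a⁻¹).1 := by rw [twg_rho_inv_mul, Matrix.one_mul] }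
  have hmem : ∀ g, g ∈ H ↔ (ρ g).1 * Y = Y * (ρ g).1 := fun g => Iff.rfl
  refine ⟨H, ?_, hmem⟩
  by_cases htop : ∀ g, g ∈ H
  · left
    have : H = ⊤ := by ext g; simp [htop g]
    rw [this, Subgroup.index_top]
  · right
    simp only [not_forall] at htop
    obtain ⟨a, ha⟩ := htop
    rw [Subgroup.index_eq_two_iff_exists_notMem_and]
    refine ⟨a, ha, fun b => ?_⟩
    by_cases hb : b ∈ H
    · exact Or.inr hb
    · left
      have ha' : (ρ a).1 * Y = -(Y * (ρ a).1) := (hpm a).resolve_left (fun h => ha ((hmem a).2 h))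
      have hb' : (ρ b).1 * Y = -(Y * (ρ b).1) := (hpm b).resolve_left (fun h => hb ((hmem b).2 h))
      rw [hmem, twg_rho_mul, Matrix.mul_assoc, ha', Matrix.mul_neg, ← Matrix.mul_assoc, hb',
        Matrix.neg_mul, neg_neg, Matrix.mul_assoc]

/-- hypotheses of irreducibility, in eigenvector form -/
def TwgIrr : Prop :=
  ∀ H : Subgroup G, H.index = 1 ∨ H.index = 2 → ∀ v : Fin 2 → k, v ≠ 0 →
    ¬ ∀ g ∈ H, ∃ a : k, (ρ g).1 *ᵥ v = a • v

/-- every `ρ(g)` has an eigenvector over `k` -/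
def TwgSplit : Prop :=
  ∀ g : G, ∃ v : Fin 2 → k, v ≠ 0 ∧ ∃ a : k, (ρ g).1 *ᵥ v = a • v

variable {ρ}

theorem twg_irr_top (hirr : TwgIrr ρ) (v : Fin 2 → k) (hv : v ≠ 0) :
    ¬ ∀ g, ∃ a : k, (ρ g).1 *ᵥ v = a • v := by
  intro h
  exact hirr ⊤ (Or.inl Subgroup.index_top) v hv (fun g _ => h g)

/-- **Lemma Pm.** no non-scalar matrix with an eigenvector over `k` commutes or anticommutes with
every `ρ(g)`. -/
theorem twg_no_pm_eig (hirr : TwgIrr ρ) (Y : Matrix (Fin 2) (Fin 2) k)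
    (hY : ∀ c : k, Y ≠ c • (1 : Matrix (Fin 2) (Fin 2) k))
    (v : Fin 2 → k) (hv : v ≠ 0) (a : k) (hYv : Y *ᵥ v = a • v)
    (hpm : ∀ g, (ρ g).1 * Y = Y * (ρ g).1 ∨ (ρ g).1 * Y = -(Y * (ρ g).1)) : False := by
  obtain ⟨H, hidx, hH⟩ := twg_index_centralizer ρ Y hpm
  refine hirr H hidx v hv (fun g hg => ?_)
  have hc := (hH g).1 hg
  have h1 : Y *ᵥ ((ρ g).1 *ᵥ v) = a • ((ρ g).1 *ᵥ v) := by
    rw [Matrix.mulVec_mulVec, ← hc, ← Matrix.mulVec_mulVec, hYv, Matrix.mulVec_smul]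
  obtain ⟨c, hc⟩ := twg_eig_unique hY hv hYv h1
  exact ⟨c, hc⟩

/-- **Lemma L.** there is no `G`-stable line in the trace-zero matrices. -/
theorem twg_no_stable_line (h2 : (2 : k) ≠ 0) (hsplit : TwgSplit ρ) (hirr : TwgIrr ρ)
    (X₀ : Matrix (Fin 2) (Fin 2) k) (htr : X₀.trace = 0) (hX₀ : X₀ ≠ 0)
    (hst : ∀ g, ∃ η : k, (ρ g).1 * X₀ = η • (X₀ * (ρ g).1)) : False := by
  have hsq := twg_ch2_trace_zero X₀ htr
  set δ : k := -X₀.det with hδ
  -- X₀ is not scalar
  have hns : ∀ c : k, X₀ ≠ c • (1 : Matrix (Fin 2) (Fin 2) k) := by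
    intro c hc
    have : X₀.trace = 2 * c := by
      rw [hc, Matrix.trace_smul, Matrix.trace_one, Fintype.card_fin]; simp [mul_comm]
    rw [htr] at this
    have hc0 : c = 0 := by
      rcases mul_eq_zero.1 this.symm with h | h
      · exact absurd h h2
      · exact h
    apply hX₀
    rw [hc, hc0, zero_smul]
  -- η ≠ 0
  have hη0 : ∀ g (η : k), (ρ g).1 * X₀ = η • (X₀ * (ρ g).1) → η ≠ 0 := by
    intro g η h hη
    rw [hη, zero_smul] at h
    apply hX₀
    have := congrArg (fun M => (ρ g⁻¹).1 * M) h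
    simpa [← Matrix.mul_assoc, twg_rho_inv_mul] using this
  by_cases hδ0 : δ = 0
  · -- nilpotent case
    rw [hδ0, zero_smul] at hsq
    obtain ⟨w, hw⟩ := twg_exists_mulVec_ne_zero hX₀
    set v := X₀ *ᵥ w with hv
    have hXv : X₀ *ᵥ v = 0 := by
      rw [hv, Matrix.mulVec_mulVec, hsq, Matrix.zero_mulVec]
    refine twg_irr_top hirr v hw (fun g => ?_)
    obtain ⟨η, hη⟩ := hst g
    have hη' := hη0 g η hη
    have h1 : X₀ *ᵥ ((ρ g).1 *ᵥ v) = 0 := by
      have := congrArg (fun M => M *ᵥ v) hη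
      simp only [Matrix.smul_mulVec, ← Matrix.mulVec_mulVec, hXv, Matrix.mulVec_zero] at this
      have h3 : η • (X₀ *ᵥ ((ρ g).1 *ᵥ v)) = 0 := this.symm
      rcases smul_eq_zero.1 h3 with h | h
      · exact absurd h hη'
      · exact h
    obtain ⟨c, hc⟩ := twg_ker_unique hX₀ hw hXv h1
    exact ⟨c, hc⟩
  · -- X₀² = δ ≠ 0 : every g commutes or anticommutes with X₀
    have hpm : ∀ g, (ρ g).1 * X₀ = X₀ * (ρ g).1 ∨ (ρ g).1 * X₀ = -(X₀ * (ρ g).1) := by
      intro g
      obtain ⟨η, hη⟩ := hst g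
      have h1 : (ρ g).1 * (X₀ * X₀) = (η * η) • ((X₀ * X₀) * (ρ g).1) := by
        calc (ρ g).1 * (X₀ * X₀) = ((ρ g).1 * X₀) * X₀ := by rw [Matrix.mul_assoc]
          _ = (η • (X₀ * (ρ g).1)) * X₀ := by rw [hη]
          _ = η • (X₀ * ((ρ g).1 * X₀)) := by rw [Matrix.smul_mul, Matrix.mul_assoc]
          _ = η • (X₀ * (η • (X₀ * (ρ g).1))) := by rw [hη]
          _ = (η * η) • ((X₀ * X₀) * (ρ g).1) := by
              rw [Matrix.mul_smul, smul_smul, Matrix.mul_assoc]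
      rw [hsq, Matrix.mul_smul, Matrix.smul_mul, Matrix.mul_one, Matrix.one_mul, smul_smul] at h1
      have h3 : (δ * (1 - η * η)) • (ρ g).1 = 0 := by
        rw [mul_sub, mul_one, sub_smul, sub_eq_zero]
        rw [show δ * (η * η) = η * η * δ by ring]
        exact h1
      have h4 : (1 - η) * (1 + η) = 0 := by
        rcases smul_eq_zero.1 h3 with h | h
        · rcases mul_eq_zero.1 h with h | h
          · exact absurd h hδ0
          · linear_combination h
        · exact absurd h (twg_rho_ne_zero ρ g)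
      rcases mul_eq_zero.1 h4 with h | h
      · left
        have : η = 1 := by linear_combination -h
        rw [hη, this, one_smul]
      · right
        have : η = -1 := by linear_combination h
        rw [hη, this, neg_smul, one_smul]
    by_cases hsqr : ∃ r : k, r * r = δ
    · obtain ⟨r, hr⟩ := hsqr
      have hne : X₀ + r • (1 : Matrix (Fin 2) (Fin 2) k) ≠ 0 := by
        intro h
        apply hns (-r)
        rw [neg_smul]
        exact eq_neg_of_add_eq_zero_left h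
      obtain ⟨w, hw⟩ := twg_exists_mulVec_ne_zero hne
      refine twg_no_pm_eig hirr X₀ hns _ hw r ?_ hpm
      rw [Matrix.mulVec_mulVec, Matrix.mul_add, hsq, ← hr, Matrix.mul_smul, Matrix.mul_one,
        ← Matrix.smul_mulVec, smul_add, smul_smul, add_comm]
    · -- δ is not a square: the centraliser of X₀ is scalar
      obtain ⟨H, hidx, hH⟩ := twg_index_centralizer ρ X₀ hpm
      have hv0 : (![1, 0] : Fin 2 → k) ≠ 0 := by
        intro h
        have := congrFun h 0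
        simp at this
      refine hirr H hidx ![1, 0] hv0 (fun g hg => ?_)
      have hc := (hH g).1 hg
      obtain ⟨u, hu, a, hua⟩ := hsplit g
      have h1 : (ρ g).1 *ᵥ (X₀ *ᵥ u) = a • (X₀ *ᵥ u) := by
        rw [Matrix.mulVec_mulVec, hc, ← Matrix.mulVec_mulVec, hua, Matrix.mulVec_smul]
      have hcr : twgCr u (X₀ *ᵥ u) ≠ 0 := by
        intro h
        obtain ⟨r, hr⟩ := twg_exists_smul_of_cr_eq_zero hu h
        apply hsqr
        refine ⟨r, ?_⟩
        have h5 : (X₀ * X₀) *ᵥ u = (r * r) • u := by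
          rw [← Matrix.mulVec_mulVec, hr, Matrix.mulVec_smul, hr, smul_smul]
        rw [hsq, Matrix.smul_mulVec, Matrix.one_mulVec] at h5
        have h6 : (δ - r * r) • u = 0 := by rw [sub_smul, h5, sub_self]
        rcases smul_eq_zero.1 h6 with h | h
        · linear_combination -h
        · exact absurd h hu
      have hsc := twg_scalar_of_two_eig hcr hua h1
      refine ⟨a, ?_⟩
      rw [hsc, Matrix.smul_mulVec, Matrix.one_mulVec]

/-- **Step A.** a trace-zero matrix orthogonal to a stable set of trace-zero matrices containing a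
non-zero element is zero. -/
theorem twg_perp_zero (h2 : (2 : k) ≠ 0) (hsplit : TwgSplit ρ) (hirr : TwgIrr ρ)
    (S : Set (Matrix (Fin 2) (Fin 2) k)) (hS0 : ∀ X ∈ S, X.trace = 0)
    (hSst : ∀ g, ∀ X ∈ S, twgMAct (ρ g) X ∈ S) (hSne : ∃ X ∈ S, X ≠ 0)
    (Y : Matrix (Fin 2) (Fin 2) k) (hY0 : Y.trace = 0) (hperp : ∀ X ∈ S, (X * Y).trace = 0) :
    Y = 0 := by
  by_contra hY
  obtain ⟨X, hXS, hX⟩ := hSne
  have hXtr := hS0 X hXS
  -- a conjugate of X which is not proportional to X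
  have h1 : ¬ ∀ g, ∃ η : k, (ρ g).1 * X = η • (X * (ρ g).1) :=
    fun h => twg_no_stable_line h2 hsplit hirr X hXtr hX h
  simp only [not_forall, not_exists] at h1
  obtain ⟨g, hg⟩ := h1
  set X' := twgMAct (ρ g) X with hX'
  have hX'S : X' ∈ S := hSst g X hXS
  have hX'tr := hS0 X' hX'S
  have hX'ne : ∀ a : k, X' ≠ a • X := by
    intro a ha
    have h3 := twgx_mact_mul_right (ρ g) X
    rw [← hX', ha, Matrix.smul_mul] at h3
    apply hg (a / (ρ g).1.det)
    have hd := twg_det_ne_zero (ρ g)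
    have := congrArg (fun M => ((ρ g).1.det)⁻¹ • M) h3
    simp only [smul_smul, inv_mul_cancel₀ hd, one_smul] at this
    rw [← this, div_eq_inv_mul]
  -- a conjugate of Y which is not proportional to Y
  have h4 : ¬ ∀ g, ∃ η : k, (ρ g).1 * Y = η • (Y * (ρ g).1) :=
    fun h => twg_no_stable_line h2 hsplit hirr Y hY0 hY h
  simp only [not_forall, not_exists] at h4
  obtain ⟨h, hh⟩ := h4
  set Y' := (ρ h).1 * Y * (ρ h⁻¹).1 with hY'
  have hY'tr : Y'.trace = 0 := by
    rw [hY', Matrix.trace_mul_cycle, twg_rho_inv_mul, Matrix.one_mul, hY0]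
  have hY'ne : ∀ a : k, Y' ≠ a • Y := by
    intro a ha
    apply hh a
    have := congrArg (fun M => M * (ρ h).1) ha
    simp only [hY', Matrix.mul_assoc, twg_rho_inv_mul, Matrix.mul_one, Matrix.smul_mul] at this
    exact this
  have hperp' : ∀ X₁ ∈ S, (X₁ * Y').trace = 0 := by
    intro X₁ hX₁
    have h5 := hperp _ (hSst h⁻¹ X₁ hX₁)
    have e : (ρ h⁻¹)⁻¹ = ρ h := by rw [← map_inv, inv_inv]
    rw [twgx_mact_eq, e, Matrix.smul_mul, Matrix.trace_smul, smul_eq_mul] at h5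
    have h6 := (mul_eq_zero.1 h5).resolve_left (twg_det_ne_zero _)
    rw [hY']
    calc (X₁ * ((ρ h).1 * Y * (ρ h⁻¹).1)).trace
        = ((X₁ * (ρ h).1 * Y) * (ρ h⁻¹).1).trace := by simp only [Matrix.mul_assoc]
      _ = ((ρ h⁻¹).1 * (X₁ * (ρ h).1 * Y)).trace := Matrix.trace_mul_comm _ _
      _ = ((ρ h⁻¹).1 * X₁ * (ρ h).1 * Y).trace := by simp only [Matrix.mul_assoc]
      _ = 0 := h6
  -- the bracket Z₀ = [X, X']
  set Z₀ := X * X' - X' * X with hZ₀
  have hZtr : Z₀.trace = 0 := by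
    rw [hZ₀, Matrix.trace_sub, Matrix.trace_mul_comm, sub_self]
  have hZne : Z₀ ≠ 0 := by
    intro hZ
    obtain ⟨a, ha⟩ := twg_cen h2 hXtr hX'tr hX (sub_eq_zero.1 hZ)
    exact hX'ne a ha
  have hcY : Z₀ * Y = Y * Z₀ := by
    have := twg_bracket_bracket hXtr hX'tr hY0
    rw [hperp X hXS, hperp X' hX'S, mul_zero, zero_smul, zero_smul, sub_zero] at this
    exact sub_eq_zero.1 this
  have hcY' : Z₀ * Y' = Y' * Z₀ := by
    have := twg_bracket_bracket hXtr hX'tr hY'tr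
    rw [hperp' X hXS, hperp' X' hX'S, mul_zero, zero_smul, zero_smul, sub_zero] at this
    exact sub_eq_zero.1 this
  obtain ⟨c, hc⟩ := twg_cen h2 hZtr hY0 hZne hcY
  obtain ⟨c', hc'⟩ := twg_cen h2 hZtr hY'tr hZne hcY'
  have hc0 : c ≠ 0 := by
    intro h0
    apply hY
    rw [hc, h0, zero_smul]
  apply hY'ne (c' / c)
  rw [hc', hc, smul_smul, div_mul_cancel₀ _ hc0]

end Fermat.Agent.S56
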